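import Mathlib

/-!
# S15/S (FIN): the determinant trick (Mathlib only)

`M ≤ J` finitely generated, stable under `ε`, `ε M ⊆ r M + (torsion of M)`.  Then there is a monic `f ∈ ℤ[X]`, `f ≡ X ^ deg f` modulo `r`, with
`f(ε) M ⊆` torsion.
Proof.  `T := ` torsion subgroup of `↥M`, `M' := ↥M ⧸ T` is a finite `ℤ`-module, `ε` induces `ε' : Module.End ℤ M'` with
`LinearMap.range ε' ≤ (Ideal.span {(r : ℤ)}) • ⊤`;
`LinearMap.exists_monic_and_natDegree_eq_and_coeff_mem_pow_and_aeval_eq_zero ℤ ε' (Ideal.span {(r:ℤ)}) _` gives `p` monic with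
`p.coeff k ∈ I ^ (p.natDegree - k)` and `aeval ε' p = 0`.  For `k < natDegree`: `(r : ℤ) ∣ p.coeff k` (`Ideal.pow_le_self`, `Ideal.mem_span_singleton`), so
`p.map (Int.castRingHom (ZMod r)) = X ^ natDegree` (`Polynomial.ext`, `Polynomial.coeff_map`, `ZMod.intCast_zmod_eq_zero_iff_dvd`/`ZMod.intCast_eq_zero_iff`...).
Compatibility: for every polynomial `q` and `m ∈ M`: the class of `(aeval ε q) m` in `M'` is `(aeval ε' q) (class of m)` (`Polynomial.induction_on`).
-/

set_option autoImplicit false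

namespace Fermat.Agent.S15.Sel

open Polynomial

/-- compatibility of `aeval` along a semiconjugating additive map. -/
theorem aeval_semiconj_aux {A B : Type*} [AddCommGroup A] [AddCommGroup B]
    (π : A →+ B) (e : AddMonoid.End A) (e' : Module.End ℤ B)
    (hc : ∀ a, π (e a) = e' (π a)) (q : ℤ[X]) (a : A) :
    π ((aeval e q) a) = (aeval e' q) (π a) := by
  induction q using Polynomial.induction_on generalizing a with
  | C c =>
    rw [aeval_C, aeval_C, eq_intCast, eq_intCast, AddMonoid.End.intCast_apply, map_zsmul,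
      Module.End.intCast_apply]
  | add p q hp hq =>
    rw [map_add, map_add]
    change π ((aeval e p) a + (aeval e q) a) = _
    rw [map_add, hp, hq, LinearMap.add_apply]
  | monomial n c ih =>
    rw [pow_succ, ← mul_assoc, map_mul, map_mul (aeval e'), aeval_X, aeval_X]
    change π ((aeval e (C c * X ^ n)) (e a)) = (aeval e' (C c * X ^ n)) (e' (π a))
    rw [ih, hc]

theorem exists_monic_aeval_torsion {J : Type*} [AddCommGroup J] (ε : AddMonoid.End J)
    (M : AddSubgroup J) (hfg : M.FG) (hM : ∀ m ∈ M, ε m ∈ M) (r : ℕ)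
    (h : ∀ m ∈ M, ∃ m' ∈ M, ∃ t ∈ M, (∃ k : ℕ, 0 < k ∧ k • t = 0) ∧ ε m = r • m' + t) :
    ∃ f : ℤ[X], f.Monic ∧ f.map (Int.castRingHom (ZMod r)) = X ^ f.natDegree ∧
      ∀ m ∈ M, ∃ k : ℕ, 0 < k ∧ k • (aeval ε f) m = 0 := by
  classical
  -- the module `M`, its torsion, the quotient
  let Mm : Submodule ℤ J := AddSubgroup.toIntSubmodule M
  have hfin : Module.Finite ℤ Mm := by
    rw [Module.Finite.iff_fg, Submodule.fg_iff_addSubgroup_fg]
    exact hfg
  let εL : J →ₗ[ℤ] J := ε.toIntLinearMap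
  let εM : Mm →ₗ[ℤ] Mm := εL.restrict hM
  let T : Submodule ℤ Mm := Submodule.torsion ℤ Mm
  have hT : T ≤ T.comap εM := by
    intro x hx
    rw [Submodule.mem_comap]
    rw [Submodule.mem_torsion_iff] at hx ⊢
    obtain ⟨a, ha⟩ := hx
    refine ⟨a, ?_⟩
    rw [Submonoid.smul_def] at ha ⊢
    rw [← map_smul, ha, map_zero]
  let ε' : Module.End ℤ (Mm ⧸ T) := T.mapQ T εM hT
  have hrange : LinearMap.range ε' ≤ (Ideal.span {(r : ℤ)}) • (⊤ : Submodule ℤ (Mm ⧸ T)) := by
    rintro _ ⟨x, rfl⟩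
    obtain ⟨m, rfl⟩ := T.mkQ_surjective x
    obtain ⟨m', hm', t, ht, ⟨k, hk, hkt⟩, he⟩ := h m.1 m.2
    have h1 : εM m = (r : ℤ) • (⟨m', hm'⟩ : Mm) + (⟨t, ht⟩ : Mm) := by
      apply Subtype.ext
      change ε m.1 = (r : ℤ) • m' + t
      rw [he, natCast_zsmul]
    have h2 : (⟨t, ht⟩ : Mm) ∈ T := by
      rw [Submodule.mem_torsion_iff]
      refine ⟨⟨(k : ℤ), mem_nonZeroDivisors_of_ne_zero (by exact_mod_cast hk.ne')⟩, ?_⟩
      rw [Submonoid.smul_def]
      apply Subtype.ext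
      change (k : ℤ) • t = 0
      rw [natCast_zsmul, hkt]
    have h3 : ε' (T.mkQ m) = (r : ℤ) • T.mkQ (⟨m', hm'⟩ : Mm) := by
      change T.mkQ (εM m) = _
      rw [h1, map_add, map_smul, (Submodule.Quotient.mk_eq_zero T).2 h2 |> fun e => (e : T.mkQ _ = 0),
        add_zero]
    rw [h3]
    exact Submodule.smul_mem_smul (Ideal.mem_span_singleton_self _) Submodule.mem_top
  obtain ⟨p, hp, -, hcoef, hzero⟩ :=
    LinearMap.exists_monic_and_natDegree_eq_and_coeff_mem_pow_and_aeval_eq_zero ℤ ε'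
      (Ideal.span {(r : ℤ)}) hrange
  refine ⟨p, hp, ?_, ?_⟩
  · ext k
    rw [coeff_map, coeff_X_pow]
    split_ifs with hk
    · rw [hk, hp.coeff_natDegree, map_one]
    · rcases lt_or_gt_of_ne hk with hlt | hgt
      · have h1 : p.coeff k ∈ Ideal.span {(r : ℤ)} :=
          Ideal.pow_le_self (by omega) (hcoef k)
        rw [Ideal.mem_span_singleton] at h1
        rw [eq_intCast]
        exact (ZMod.intCast_zmod_eq_zero_iff_dvd _ _).2 h1
      · rw [coeff_eq_zero_of_natDegree_lt hgt, map_zero]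
  · intro m hm
    let e : AddMonoid.End Mm := εM.toAddMonoidHom
    have c1 := aeval_semiconj_aux (T.mkQ.toAddMonoidHom) e ε' (fun _ => rfl) p ⟨m, hm⟩
    have c2 := aeval_semiconj_aux (Mm.subtype.toAddMonoidHom) e εL (fun _ => rfl) p ⟨m, hm⟩
    have c3 := aeval_semiconj_aux (AddMonoidHom.id J) ε εL (fun _ => rfl) p m
    rw [hzero] at c1
    have c4 : (aeval e p) ⟨m, hm⟩ ∈ T := (Submodule.Quotient.mk_eq_zero T).1 c1
    rw [Submodule.mem_torsion_iff] at c4
    obtain ⟨a, ha⟩ := c4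
    rw [Submonoid.smul_def] at ha
    have ha0 : (a : ℤ) ≠ 0 := nonZeroDivisors.ne_zero a.2
    have c5 : (aeval ε p) m = (((aeval e p) ⟨m, hm⟩ : Mm) : J) := by
      have : (aeval ε p) m = (aeval εL p) m := c3
      rw [this]
      exact c2.symm
    have c6 : (a : ℤ) • (aeval ε p) m = 0 := by
      rw [c5]
      have := congrArg (Subtype.val) ha
      simpa using this
    refine ⟨(a : ℤ).natAbs, Int.natAbs_pos.2 ha0, ?_⟩
    rcases Int.natAbs_eq (a : ℤ) with h1 | h1
    · rw [← natCast_zsmul, ← h1, c6]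
    · have : ((a : ℤ).natAbs : ℤ) = -(a : ℤ) := by omega
      rw [← natCast_zsmul, this, neg_smul, c6, neg_zero]

end Fermat.Agent.S15.Sel
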