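import Fermat.Agent.S15.Sel.Rank
import Fermat.Agent.S15.Sel.CharPoly

/-!
# S15/S: statement (FIN) (shape requested by helper299)

`J` an `r`-divisible `Γ`-module, `M = J^Γ` finitely generated, `ε` an equivariant endomorphism, idempotent on `J[r]`, `G = ε J[r]` finite.
If all the Kummer cocycles `σ ↦ (σ - 1) ε R` (`r R ∈ M`) lie in a finite set with at most `#G` elements, then there is a monic
`f ∈ ℤ[X]`, `f ≡ X ^ n` modulo `r`, such that `f(ε) M` is torsion.
-/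

set_option autoImplicit false

namespace Fermat.Agent.S15.Sel

open Polynomial

variable {Γ J : Type*} [Group Γ] [AddCommGroup J] [DistribMulAction Γ J]

theorem exists_monic_of_card_le (r : ℕ) (hr : r.Prime) (ε : AddMonoid.End J)
    (hε : ∀ (σ : Γ) (x : J), ε (σ • x) = σ • ε x)
    (hidem : ∀ x : J, r • x = 0 → ε (ε x) = ε x) (hdiv : ∀ x : J, ∃ y : J, r • y = x)
    (hfg : (fixedPts Γ J).FG) [Finite (epsTors r ε)] (ZZ : Set (Γ → J)) (hZZ : ZZ.Finite)
    (hsub : ∀ R : J, r • R ∈ fixedPts Γ J → kum ε R ∈ ZZ)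
    (hcard : ZZ.ncard ≤ Nat.card (epsTors r ε)) :
    ∃ f : ℤ[X], f.Monic ∧ f.map (Int.castRingHom (ZMod r)) = X ^ f.natDegree ∧
      ∀ m ∈ fixedPts Γ J, ∃ k : ℕ, 0 < k ∧ k • (aeval ε f) m = 0 := by
  refine exists_monic_aeval_torsion ε (fixedPts Γ J) hfg
    (fun m hm => eps_mem_fixedPts ε hε m hm) r ?_
  intro m hm
  obtain ⟨m', hm', t, ht, h⟩ := eps_fixed_le r hr ε hε hidem hdiv hfg ZZ hZZ hsub hcard m hm
  exact ⟨m', hm', t, ht.1, ht.2, h⟩

end Fermat.Agent.S15.Sel
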