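import Fermat.Agent.S15.Sel.Defs
import Fermat.Agent.S15.Q.Count
import Fermat.Agent.S15.Q.Real
import Fermat.Agent.S15.Q.Cyclo

/-!
# S15/S: the instances of `EtBound` and the constructor of `SelData` from a "kernel of reduction" `G0`

* `etBound_unr`: `Et = UnrAt (𝔄.pl r)`: `Q.ZHomQ_subset`, `Q.ncard_ZHomT`.
* `etBound_real`: `r = 2`, `Et h = (ValDvd 2 2 h ∧ h c∞ = 1)`: `Q.ZRealQ_subset`, `Q.ncard_ZRealT`.
* `SelData.of_kernel` (the original form of the conditions at `r`, plan #1210): `G0 ≤ G` with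
    (atr) `c τ ∈ G0` for `τ` in the inertia group at `r`; (peu) `lam ∘ c` is `PeuRam` for every character `lam` of `G0`;
    (r1) inertia at `r` acts trivially on `G / G0`; (r2) inertia at `r` acts on `G0` through the cyclotomic character.
  `typ`: `τ` in the inertia group with `τ ζ ≠ ζ` (`Q.exists_inertia_moving`), `τ ζ = ζ ^ k` (`IsPrimitiveRoot.eq_pow_of_pow_eq_one`), `n = 1`.
  `etc`: `lam = 1` on `G0`.   `zc`: `Q.valDvd_of_peuRam`.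
-/

set_option autoImplicit false

namespace Fermat.Agent.S15.Sel

open Fermat.Agent.Lib.InertiaField Fermat.Agent.S15.Q

variable {J : Type*} [AddCommGroup J] [DistribMulAction GQ J]

theorem etBound_unr (r N : ℕ) (hr : r.Prime) (hN : N.Prime) (hrN : r ≠ N) (𝔄 : Places) :
    EtBound r N 𝔄 (UnrAt (𝔄.pl r)) where
  q h _ hh hf hu he := by
    have hmem : h ∈ ZHomQ 𝔄 := by
      refine ⟨hh, hf, fun ℓ hℓ => ?_⟩
      by_cases hℓr : ℓ = r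
      · subst hℓr
        exact he
      · exact hu ℓ hℓ hℓr
    exact ZHomQ_subset 𝔄 hmem
  t := by
    refine ⟨ZHomT r N 𝔄, (ncard_ZHomT r N hr hN hrN 𝔄).1, (ncard_ZHomT r N hr hN hrN 𝔄).2, ?_⟩
    intro h hp hh hf hu he
    refine ⟨hp, hh, hf, fun ℓ hℓ hℓN => ?_⟩
    by_cases hℓr : ℓ = r
    · subst hℓr
      exact he
    · exact hu ℓ hℓ hℓr hℓN

theorem etBound_real (N : ℕ) (hN : N.Prime) (𝔄 : Places) (cinf : GQ)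
    (hc : ∀ x : Qb, x ^ 2 = -1 → cinf x ≠ x) (hcN : ∀ x : Qb, x ^ 2 = (N : Qb) → cinf x = x) :
    EtBound 2 N 𝔄 (fun h => ValDvd 2 2 h ∧ h cinf = 1) where
  q _ hp hh hf hu he := ZRealQ_subset 𝔄 cinf hc ⟨hp, hh, hf, hu, he.1, he.2⟩
  t := ⟨ZRealT N 𝔄 cinf, (ncard_ZRealT N hN 𝔄 cinf hc hcN).1, (ncard_ZRealT N hN 𝔄 cinf hc hcN).2,
    fun _ hp hh hf hu he => ⟨hp, hh, hf, hu, he.1, he.2⟩⟩

theorem SelData.of_kernel (r N : ℕ) (hr : r.Prime) (𝔄 : Places) (ζ : Qb) (hζ : IsPrimitiveRoot ζ r)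
    (G Tor G0 : AddSubgroup J) (𝒞 : AddSubgroup (GQ → J))
    (gtors : ∀ g ∈ G, r • g = 0) (g0le : G0 ≤ G) (val : 𝒞 ≤ valued G)
    (coc : ∀ c ∈ 𝒞, ∀ σ τ : GQ, c (σ * τ) = c σ + σ • c τ)
    (fin : ∀ c ∈ 𝒞, ∃ F : IntermediateField ℚ Qb, FiniteDimensional ℚ F ∧
      ∀ σ : GQ, (∀ x ∈ F, σ x = x) → c σ = 0)
    (unr : ∀ c ∈ 𝒞, ∀ ℓ : ℕ, ℓ.Prime → ℓ ≠ r → ℓ ≠ N →
      ∀ τ ∈ (𝔄.pl ℓ).inertiaSubgroupIn ℚ, c τ = 0)
    (atN : ∀ c ∈ 𝒞, ∀ τ ∈ (𝔄.pl N).inertiaSubgroupIn ℚ, c τ ∈ Tor)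
    (atr : ∀ c ∈ 𝒞, ∀ τ ∈ (𝔄.pl r).inertiaSubgroupIn ℚ, c τ ∈ G0)
    (peu : ∀ c ∈ 𝒞, ∀ lam : J → Qb, IsChar r G0 lam → PeuRam (𝔄.pl r) (fun τ => lam (c τ)))
    (r1 : ∀ τ ∈ (𝔄.pl r).inertiaSubgroupIn ℚ, ∀ g ∈ G, τ • g - g ∈ G0)
    (r2 : ∀ τ ∈ (𝔄.pl r).inertiaSubgroupIn ℚ, ∀ g ∈ G0, ∀ k : ℕ, τ ζ = ζ ^ k → τ • g = k • g) :
    SelData r N 𝔄 ζ (UnrAt (𝔄.pl r)) G Tor G0 𝒞 where
  gtors := gtors
  x0le := g0le
  val := val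
  coc := coc
  fin := fin
  unr := unr
  atN := atN
  typ hr2 := by
    obtain ⟨τ, hτ, hmove⟩ := exists_inertia_moving (𝔄.pl r) r hr hr2 (𝔄.liesOver r hr) ζ hζ
    have hpow : (τ ζ) ^ r = 1 := by rw [← map_pow, hζ.pow_eq_one, map_one]
    have : NeZero r := ⟨hr.ne_zero⟩
    obtain ⟨k, -, hk⟩ := hζ.eq_pow_of_pow_eq_one hpow
    refine ⟨τ, k, 1, hk.symm, ?_, ?_, ?_⟩
    · rw [hk]
      exact hmove
    · intro g hg
      rw [Function.iterate_one]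
      exact r1 τ hτ g hg
    · intro g hg
      rw [Function.iterate_one]
      exact sub_eq_zero.2 (r2 τ hτ g hg k hk.symm)
  etc c hc lam _ h1 _ τ hτ := h1 _ (atr c hc τ hτ)
  zc c hc lam hlam _ :=
    valDvd_of_peuRam (𝔄.pl r) r hr (𝔄.liesOver r hr) r hr.ne_zero _
      (peu c hc lam ⟨fun x hx y hy => hlam.1 x (g0le hx) y (g0le hy), fun x hx => hlam.2 x (g0le hx)⟩)

end Fermat.Agent.S15.Sel
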