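import Mathlib

/-!
# S15, block S (Selmer devissage at the level of COCYCLES, architect helper67): abstract counting (Mathlib only)

* `card_le_mul_of_step`: `C' ≤ C''` subgroups, `Φ` a map on `C''` with values in a finite set `S` whose fibres are contained in
  cosets of `C'`.  Then `#C'' ≤ #S * #C'`.  (Map `C'' → S × C'`: choose a representative `c_s` in each nonempty fibre,
  `c ↦ (Φ c, c - c_{Φ c})` is injective; `Nat.card_le_card_of_injective`, `Nat.card_prod`, `Set.ncard` = `Nat.card` of the subtype.)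
* `mul_card_le_of_not_le`: `T' ≤ T''`, `x ∈ T''`, `k • x ∉ T'` for `0 < k < r`: then `r * #T' ≤ #T''`
  (`Fin r × T' → T''`, `(k, t) ↦ k • x + t` is injective).
-/

set_option autoImplicit false

namespace Fermat.Agent.S15.Sel

theorem card_le_mul_of_step {𝒢 X : Type*} [AddCommGroup 𝒢] (C' C'' : AddSubgroup 𝒢) (hle : C' ≤ C'')
    [Finite C'] (Φ : 𝒢 → X) (S : Set X) (hS : S.Finite) (hΦ : ∀ c ∈ C'', Φ c ∈ S)
    (hinj : ∀ c ∈ C'', ∀ c' ∈ C'', Φ c = Φ c' → c - c' ∈ C') :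
    Finite C'' ∧ Nat.card C'' ≤ S.ncard * Nat.card C' := by
  classical
  have : Finite S := hS.to_subtype
  let rep : X → 𝒢 := fun s => if h : ∃ c ∈ C'', Φ c = s then h.choose else 0
  have hrep : ∀ c ∈ C'', rep (Φ c) ∈ C'' ∧ Φ (rep (Φ c)) = Φ c := by
    intro c hc
    have h : ∃ c₁ ∈ C'', Φ c₁ = Φ c := ⟨c, hc, rfl⟩
    simp only [rep, dif_pos h]
    exact h.choose_spec
  let F : C'' → S × C' := fun c =>
    (⟨Φ c, hΦ c c.2⟩, ⟨(c : 𝒢) - rep (Φ c), hinj c c.2 _ (hrep c c.2).1 (hrep c c.2).2.symm⟩)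
  have hF : Function.Injective F := by
    intro c c' h
    have h1 : Φ (c : 𝒢) = Φ (c' : 𝒢) := congrArg (fun z : S × C' => (z.1 : X)) h
    have h2 : (c : 𝒢) - rep (Φ c) = (c' : 𝒢) - rep (Φ c') :=
      congrArg (fun z : S × C' => (z.2 : 𝒢)) h
    rw [h1] at h2
    exact Subtype.ext (sub_left_injective h2)
  refine ⟨Finite.of_injective F hF, ?_⟩
  have h3 := Nat.card_le_card_of_injective F hF
  rwa [Nat.card_prod, Nat.card_coe_set_eq] at h3

theorem mul_card_le_of_not_le {𝒢 : Type*} [AddCommGroup 𝒢] (T' T'' : AddSubgroup 𝒢) (hle : T' ≤ T'')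
    [Finite T''] (r : ℕ) (x : 𝒢) (hx : x ∈ T'') (hk : ∀ k : ℕ, 0 < k → k < r → k • x ∉ T') :
    r * Nat.card T' ≤ Nat.card T'' := by
  let G : Fin r × T' → T'' := fun z =>
    ⟨(z.1 : ℕ) • x + (z.2 : 𝒢), add_mem (nsmul_mem hx _) (hle z.2.2)⟩
  have key : ∀ (k k' : ℕ) (t t' : T'), k ≤ k' → k' < r →
      k • x + (t : 𝒢) = k' • x + (t' : 𝒢) → k = k' := by
    intro k k' t t' hkk hk' h
    by_contra hne
    have hlt : k < k' := lt_of_le_of_ne hkk hne
    refine hk (k' - k) (Nat.sub_pos_of_lt hlt) (lt_of_le_of_lt (Nat.sub_le _ _) hk') ?_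
    have h1 : (k' - k) • x = (t : 𝒢) - (t' : 𝒢) := by
      have h2 : k' • x = (k' - k) • x + k • x := by
        rw [← add_nsmul, Nat.sub_add_cancel hkk]
      rw [h2] at h
      rw [eq_sub_iff_add_eq]
      have h3 : k • x + (t : 𝒢) = k • x + ((k' - k) • x + (t' : 𝒢)) := by
        rw [h]; abel
      exact (add_left_cancel h3).symm
    rw [h1]
    exact sub_mem t.2 t'.2
  have hG : Function.Injective G := by
    rintro ⟨k, t⟩ ⟨k', t'⟩ h
    have h0 : (k : ℕ) • x + (t : 𝒢) = (k' : ℕ) • x + (t' : 𝒢) := congrArg Subtype.val h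
    have h1 : (k : ℕ) = (k' : ℕ) := by
      rcases le_total (k : ℕ) (k' : ℕ) with hkk | hkk
      · exact key k k' t t' hkk k'.2 h0
      · exact (key k' k t' t hkk k.2 h0.symm).symm
    rw [h1] at h0
    have h2 : t = t' := Subtype.ext (add_left_cancel h0)
    rw [Fin.ext h1, h2]
  have h3 := Nat.card_le_card_of_injective G hG
  rwa [Nat.card_prod, Nat.card_fin] at h3

end Fermat.Agent.S15.Sel
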