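import Fermat.Agent.S15.Sel.Types
import Fermat.Agent.S15.Sel.Step
import Fermat.Agent.S15.Q.Count

/-!
# S15/S: the main count  `#𝒞 ≤ #Tor * #X0`

* `step_le`: one piece.  `Φ c := fun σ => P.ι (c σ)`; `Φ c = Φ c'` implies `c - c'` has values in `H'` (`P.ker`, `P.map_add`).
  Four cases according to `Tor ⊓ H'' ≤ H'` (q/t) and `X0 ⊓ H'' ≤ H'` (et/0):
    (et,q) `Φ c = 1` by `B.q`, (et,t) `Φ c ∈ S` of `B.t`, (0,q) `Φ c ∈ ZCocQ`, (0,t) `Φ c ∈ ZCocT` (`Sel/Types.lean`), bounds `1, r, r, r^2`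
  (`Q/Count.lean`), `card_le_mul_of_step`; on the other side `mul_card_le_of_not_le` for `Tor ⊓ H' ≤ Tor ⊓ H''` in the t-case (if `x ∈ Tor ⊓ H''`, `x ∉ H'`
  then `ι x ≠ 1`, `ι x ^ r = 1`, `r` prime, so `ι (k • x) = ι x ^ k ≠ 1` for `0 < k < r`) and for `X0` in the 0-case; monotonicity
  (`Nat.card_mono`-type, `AddSubgroup.card_le_of_le`) otherwise.
* `chain_le`: induction on the chain (all members of a chain starting at `⊥` and ending below `G` are below `G`: `Piece.le`).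
* `card_le`: `H = G`.
-/

set_option autoImplicit false

namespace Fermat.Agent.S15.Sel

open Fermat.Agent.Lib.InertiaField Fermat.Agent.S15.Q

variable {J : Type*} [AddCommGroup J] [DistribMulAction GQ J] {r N : ℕ} {𝔄 : Places} {ζ : Qb}
  {Et : (GQ → Qb) → Prop} {G Tor X0 : AddSubgroup J} {𝒞 : AddSubgroup (GQ → J)}

omit [DistribMulAction GQ J] in
theorem main_finite_inf (T H : AddSubgroup J) [Finite T] : Finite ↥(T ⊓ H) :=
  Finite.of_injective (AddSubgroup.inclusion (inf_le_left : T ⊓ H ≤ T))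
    (AddSubgroup.inclusion_injective _)

omit [DistribMulAction GQ J] in
theorem main_card_inf_mono (T : AddSubgroup J) [Finite T] {H' H'' : AddSubgroup J} (h : H' ≤ H'') :
    Nat.card ↥(T ⊓ H') ≤ Nat.card ↥(T ⊓ H'') := by
  have := main_finite_inf T H''
  exact Nat.card_le_card_of_injective
    (AddSubgroup.inclusion (inf_le_inf_left T h)) (AddSubgroup.inclusion_injective _)

theorem Piece.main_ι_zero {H' H'' : AddSubgroup J} (P : Piece r H' H'') : P.ι 0 = 1 :=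
  (P.ker 0 H''.zero_mem).2 H'.zero_mem

theorem Piece.main_ι_nsmul {H' H'' : AddSubgroup J} (P : Piece r H' H'') {x : J} (hx : x ∈ H'')
    (k : ℕ) : P.ι (k • x) = P.ι x ^ k := by
  induction k with
  | zero => rw [zero_nsmul, pow_zero, P.main_ι_zero]
  | succ k ih => rw [succ_nsmul, P.map_add _ (H''.nsmul_mem hx k) _ hx, ih, pow_succ]

/-- growth of `T ⊓ H` along a piece which meets `T` -/
theorem Piece.main_growth (hr : r.Prime) {H' H'' : AddSubgroup J} (P : Piece r H' H'')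
    (T : AddSubgroup J) [Finite T] (hT : ¬ T ⊓ H'' ≤ H') :
    r * Nat.card ↥(T ⊓ H') ≤ Nat.card ↥(T ⊓ H'') := by
  have := main_finite_inf T H''
  obtain ⟨x, hx, hx'⟩ := SetLike.not_le_iff_exists.1 hT
  have hxH : x ∈ H'' := (AddSubgroup.mem_inf.1 hx).2
  refine mul_card_le_of_not_le (T ⊓ H') (T ⊓ H'') (inf_le_inf_left T P.le) r x hx ?_
  intro k hk0 hkr hmem
  have h1 : P.ι x ^ k = 1 := by
    rw [← P.main_ι_nsmul hxH k]
    exact (P.ker _ (H''.nsmul_mem hxH k)).2 (AddSubgroup.mem_inf.1 hmem).2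
  have h2 : P.ι x ^ r = 1 := P.pow x hxH
  have h3 := pow_gcd_eq_one.2 ⟨h1, h2⟩
  have hcop : Nat.gcd k r = 1 :=
    Nat.Coprime.symm ((Nat.Prime.coprime_iff_not_dvd hr).2 (Nat.not_dvd_of_pos_of_lt hk0 hkr))
  rw [hcop, pow_one] at h3
  exact hx' ((P.ker x hxH).1 h3)

theorem step_le (hr : r.Prime) (hN : N.Prime) (hrN : r ≠ N) (hζ : IsPrimitiveRoot ζ r)
    (D : SelData r N 𝔄 ζ Et G Tor X0 𝒞) (B : EtBound r N 𝔄 Et) [Finite Tor] [Finite X0]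
    {H' H'' : AddSubgroup J}
    (P : Piece r H' H'') (hH : H'' ≤ G) (hfin : Finite ↥(𝒞 ⊓ valued H'))
    (h : Nat.card ↥(𝒞 ⊓ valued H') ≤ Nat.card ↥(Tor ⊓ H') * Nat.card ↥(X0 ⊓ H')) :
    Finite ↥(𝒞 ⊓ valued H'') ∧
      Nat.card ↥(𝒞 ⊓ valued H'') ≤ Nat.card ↥(Tor ⊓ H'') * Nat.card ↥(X0 ⊓ H'') := by
  have hle : 𝒞 ⊓ valued H' ≤ 𝒞 ⊓ valued H'' :=
    inf_le_inf_left 𝒞 (fun c hc σ => P.le (hc σ))
  set Φ : (GQ → J) → (GQ → Qb) := fun c σ => P.ι (c σ) with hΦ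
  have hinj : ∀ c ∈ 𝒞 ⊓ valued H'', ∀ c' ∈ 𝒞 ⊓ valued H'', Φ c = Φ c' →
      c - c' ∈ 𝒞 ⊓ valued H' := by
    intro c hc c' hc' hcc
    obtain ⟨hc1, hc2⟩ := AddSubgroup.mem_inf.1 hc
    obtain ⟨hc1', hc2'⟩ := AddSubgroup.mem_inf.1 hc'
    refine AddSubgroup.mem_inf.2 ⟨𝒞.sub_mem hc1 hc1', fun σ => ?_⟩
    have hx : c σ ∈ H'' := hc2 σ
    have hy : c' σ ∈ H'' := hc2' σ
    have hxy : c σ - c' σ ∈ H'' := H''.sub_mem hx hy
    have e1 : P.ι (c σ) = P.ι (c σ - c' σ) * P.ι (c' σ) := by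
      rw [← P.map_add _ hxy _ hy, sub_add_cancel]
    have e2 : P.ι (c σ) = P.ι (c' σ) := congrFun hcc σ
    have hne : P.ι (c' σ) ≠ 0 := by
      intro h0
      have := P.pow _ hy
      rw [h0, zero_pow hr.ne_zero] at this
      exact zero_ne_one this
    have e3 : P.ι (c σ - c' σ) = 1 := by
      rw [e2] at e1
      exact (mul_eq_right₀ hne).1 e1.symm
    exact (P.ker _ hxy).1 e3
  -- general facts
  have fpow : ∀ c ∈ 𝒞 ⊓ valued H'', ∀ σ, Φ c σ ^ r = 1 := fun c hc σ =>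
    P.h_pow c (AddSubgroup.mem_inf.1 hc).2 σ
  have ffin : ∀ c ∈ 𝒞 ⊓ valued H'', FinLevel (Φ c) := fun c hc =>
    P.h_finLevel D c (AddSubgroup.mem_inf.1 hc).1
  have funr : ∀ c ∈ 𝒞 ⊓ valued H'', ∀ ℓ : ℕ, ℓ.Prime → ℓ ≠ r → ℓ ≠ N → UnrAt (𝔄.pl ℓ) (Φ c) :=
    fun c hc ℓ hℓ h1 h2 => P.h_unr D c (AddSubgroup.mem_inf.1 hc).1 ℓ hℓ h1 h2
  have mT := main_card_inf_mono Tor P.le
  have mX := main_card_inf_mono X0 P.le
  by_cases hq : Tor ⊓ H'' ≤ H'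
  · have funr' : ∀ c ∈ 𝒞 ⊓ valued H'', ∀ ℓ : ℕ, ℓ.Prime → ℓ ≠ r → UnrAt (𝔄.pl ℓ) (Φ c) := by
      intro c hc ℓ hℓ h1
      by_cases h2 : ℓ = N
      · subst h2
        exact P.h_unr_N D hq c (AddSubgroup.mem_inf.1 hc).1 (AddSubgroup.mem_inf.1 hc).2
      · exact funr c hc ℓ hℓ h1 h2
    by_cases het : X0 ⊓ H'' ≤ H'
    · -- (et,q)
      have hinv := P.inv_of_et D hr hζ hH het
      obtain ⟨f1, f2⟩ := card_le_mul_of_step _ _ hle Φ {fun _ => 1} (Set.finite_singleton _)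
        (fun c hc => B.q (Φ c) (fpow c hc)
          (P.isHom_of_inv D hinv c (AddSubgroup.mem_inf.1 hc).1 (AddSubgroup.mem_inf.1 hc).2)
          (ffin c hc) (funr' c hc)
          (P.h_et D hr hζ hH het c (AddSubgroup.mem_inf.1 hc).1 (AddSubgroup.mem_inf.1 hc).2)) hinj
      refine ⟨f1, f2.trans ?_⟩
      rw [Set.ncard_singleton, one_mul]
      exact h.trans (Nat.mul_le_mul mT mX)
    · -- (0,q)
      obtain ⟨x₀, hx₀, hx₀'⟩ := SetLike.not_le_iff_exists.1 het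
      have heq := P.equiv_of_zero D hr hζ x₀ hx₀ hx₀'
      obtain ⟨s1, s2⟩ := ncard_ZCocQ r hr 𝔄
      obtain ⟨f1, f2⟩ := card_le_mul_of_step _ _ hle Φ (ZCocQ r 𝔄) s1
        (fun c hc => ⟨fpow c hc,
          P.isCoc_of_equiv D heq c (AddSubgroup.mem_inf.1 hc).1 (AddSubgroup.mem_inf.1 hc).2,
          ffin c hc, funr' c hc,
          P.h_valDvd D hr hζ hH heq c (AddSubgroup.mem_inf.1 hc).1 (AddSubgroup.mem_inf.1 hc).2⟩)
        hinj
      refine ⟨f1, f2.trans ?_⟩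
      have gX := P.main_growth hr X0 het
      calc (ZCocQ r 𝔄).ncard * Nat.card ↥(𝒞 ⊓ valued H')
          ≤ r * (Nat.card ↥(Tor ⊓ H') * Nat.card ↥(X0 ⊓ H')) := Nat.mul_le_mul s2 h
        _ = Nat.card ↥(Tor ⊓ H') * (r * Nat.card ↥(X0 ⊓ H')) := by ring
        _ ≤ Nat.card ↥(Tor ⊓ H'') * Nat.card ↥(X0 ⊓ H'') := Nat.mul_le_mul mT gX
  · have gT := P.main_growth hr Tor hq
    by_cases het : X0 ⊓ H'' ≤ H'
    · -- (et,t)
      have hinv := P.inv_of_et D hr hζ hH het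
      obtain ⟨S, s1, s2, s3⟩ := B.t
      obtain ⟨f1, f2⟩ := card_le_mul_of_step _ _ hle Φ S s1
        (fun c hc => s3 (Φ c) (fpow c hc)
          (P.isHom_of_inv D hinv c (AddSubgroup.mem_inf.1 hc).1 (AddSubgroup.mem_inf.1 hc).2)
          (ffin c hc) (funr c hc)
          (P.h_et D hr hζ hH het c (AddSubgroup.mem_inf.1 hc).1 (AddSubgroup.mem_inf.1 hc).2)) hinj
      refine ⟨f1, f2.trans ?_⟩
      calc S.ncard * Nat.card ↥(𝒞 ⊓ valued H')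
          ≤ r * (Nat.card ↥(Tor ⊓ H') * Nat.card ↥(X0 ⊓ H')) := Nat.mul_le_mul s2 h
        _ = (r * Nat.card ↥(Tor ⊓ H')) * Nat.card ↥(X0 ⊓ H') := by ring
        _ ≤ Nat.card ↥(Tor ⊓ H'') * Nat.card ↥(X0 ⊓ H'') := Nat.mul_le_mul gT mX
    · -- (0,t)
      obtain ⟨x₀, hx₀, hx₀'⟩ := SetLike.not_le_iff_exists.1 het
      have heq := P.equiv_of_zero D hr hζ x₀ hx₀ hx₀'
      obtain ⟨s1, s2⟩ := ncard_ZCocT r N hr hN 𝔄
      obtain ⟨f1, f2⟩ := card_le_mul_of_step _ _ hle Φ (ZCocT r N 𝔄) s1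
        (fun c hc => ⟨fpow c hc,
          P.isCoc_of_equiv D heq c (AddSubgroup.mem_inf.1 hc).1 (AddSubgroup.mem_inf.1 hc).2,
          ffin c hc, funr c hc,
          P.h_valDvd D hr hζ hH heq c (AddSubgroup.mem_inf.1 hc).1 (AddSubgroup.mem_inf.1 hc).2⟩)
        hinj
      refine ⟨f1, f2.trans ?_⟩
      have gX := P.main_growth hr X0 het
      calc (ZCocT r N 𝔄).ncard * Nat.card ↥(𝒞 ⊓ valued H')
          ≤ r ^ 2 * (Nat.card ↥(Tor ⊓ H') * Nat.card ↥(X0 ⊓ H')) := Nat.mul_le_mul s2 h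
        _ = (r * Nat.card ↥(Tor ⊓ H')) * (r * Nat.card ↥(X0 ⊓ H')) := by ring
        _ ≤ Nat.card ↥(Tor ⊓ H'') * Nat.card ↥(X0 ⊓ H'') := Nat.mul_le_mul gT gX

theorem chain_le (hr : r.Prime) (hN : N.Prime) (hrN : r ≠ N) (hζ : IsPrimitiveRoot ζ r)
    (D : SelData r N 𝔄 ζ Et G Tor X0 𝒞) (B : EtBound r N 𝔄 Et) [Finite Tor] [Finite X0]
    {H : AddSubgroup J} (hch : Chain r ⊥ H) (hH : H ≤ G) :
    Finite ↥(𝒞 ⊓ valued H) ∧
      Nat.card ↥(𝒞 ⊓ valued H) ≤ Nat.card ↥(Tor ⊓ H) * Nat.card ↥(X0 ⊓ H) := by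
  generalize hbot : (⊥ : AddSubgroup J) = H₀ at hch
  induction hch with
  | refl =>
    subst hbot
    have hsub : Subsingleton ↥(𝒞 ⊓ valued (⊥ : AddSubgroup J)) := by
      refine ⟨fun a b => Subtype.ext (funext fun σ => ?_)⟩
      have ha := (AddSubgroup.mem_inf.1 a.2).2 σ
      have hb := (AddSubgroup.mem_inf.1 b.2).2 σ
      rw [AddSubgroup.mem_bot] at ha hb
      rw [ha, hb]
    refine ⟨inferInstance, ?_⟩
    have h1 : Nat.card ↥(𝒞 ⊓ valued (⊥ : AddSubgroup J)) ≤ 1 :=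
      Finite.card_le_one_iff_subsingleton.2 hsub
    have := main_finite_inf Tor (⊥ : AddSubgroup J)
    have := main_finite_inf X0 (⊥ : AddSubgroup J)
    have h2 : 0 < Nat.card ↥(Tor ⊓ (⊥ : AddSubgroup J)) := Nat.card_pos
    have h3 : 0 < Nat.card ↥(X0 ⊓ (⊥ : AddSubgroup J)) := Nat.card_pos
    exact h1.trans (Nat.mul_pos h2 h3)
  | step hch' hP ih =>
    obtain ⟨P⟩ := hP
    obtain ⟨f1, f2⟩ := ih (P.le.trans hH)
    exact step_le hr hN hrN hζ D B P hH f1 f2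

/-- **The Selmer count.** -/
theorem card_le (hr : r.Prime) (hN : N.Prime) (hrN : r ≠ N) (hζ : IsPrimitiveRoot ζ r)
    (D : SelData r N 𝔄 ζ Et G Tor X0 𝒞) (B : EtBound r N 𝔄 Et) [Finite Tor] [Finite X0]
    (hch : Chain r ⊥ G) :
    Finite 𝒞 ∧ Nat.card 𝒞 ≤ Nat.card Tor * Nat.card X0 := by
  obtain ⟨f1, f2⟩ := chain_le hr hN hrN hζ D B hch le_rfl
  have he : 𝒞 ⊓ valued G = 𝒞 := inf_eq_left.2 D.val
  rw [he] at f1 f2
  refine ⟨f1, f2.trans (Nat.mul_le_mul ?_ ?_)⟩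
  · exact Nat.card_le_card_of_injective (AddSubgroup.inclusion (inf_le_left : Tor ⊓ G ≤ Tor))
      (AddSubgroup.inclusion_injective _)
  · exact Nat.card_le_card_of_injective (AddSubgroup.inclusion (inf_le_left : X0 ⊓ G ≤ X0))
      (AddSubgroup.inclusion_injective _)

end Fermat.Agent.S15.Sel
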