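import Fermat.Agent.S15.Q.Defs

/-!
# S15, block S: pieces, chains and the Selmer datum (definitions)

`J` is a `G_ℚ`-module (in the application `JZero N`).  All subgroups are subgroups of `J`.
* `Piece r H' H''`: `H' ≤ H''` Galois stable, `ι` embeds `H'' / H'` in the `r`-th roots of unity of `ℚ̄`, either invariantly
  (the piece is `ℤ/r`) or equivariantly (the piece is `μ_r`).
* `Chain r H H'`: `H'` is obtained from `H` by finitely many pieces.
* `SelData`: the local conditions, at the level of COCYCLES (no cohomology groups, no coboundaries).  It is independent of the way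
  the condition at `r` is obtained:
    - `X0` is the subgroup of `G` which "counts the pieces `μ_r`" (kernel of reduction at `r`; or a generalised eigenspace of one `σ₀`;
      or, for `r = 2`, the subgroup `T_∞` at the real place);
    - `Et` is the condition obtained on the pieces of type `ℤ/r` (`UnrAt (𝔄.pl r)`; or, for `r = 2`, `ValDvd 2 2 h ∧ h c∞ = 1`);
    - on the pieces of type `μ_r` the condition is `ValDvd r r`.
-/

set_option autoImplicit false

namespace Fermat.Agent.S15.Sel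

open Fermat.Agent.Lib.InertiaField Fermat.Agent.S15.Q

variable {J : Type*} [AddCommGroup J] [DistribMulAction GQ J]

/-- a Jordan-Hoelder piece of type `ℤ/r` or `μ_r` -/
structure Piece (r : ℕ) (H' H'' : AddSubgroup J) where
  /-- the embedding of `H'' / H'` in the roots of unity -/
  ι : J → Qb
  le : H' ≤ H''
  stable : ∀ (σ : GQ), ∀ x ∈ H'', σ • x ∈ H''
  map_add : ∀ x ∈ H'', ∀ y ∈ H'', ι (x + y) = ι x * ι y
  pow : ∀ x ∈ H'', ι x ^ r = 1
  ker : ∀ x ∈ H'', ι x = 1 ↔ x ∈ H'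
  equiv : (∀ (σ : GQ), ∀ x ∈ H'', ι (σ • x) = ι x) ∨ (∀ (σ : GQ), ∀ x ∈ H'', ι (σ • x) = σ (ι x))

/-- `H'` is obtained from `H` by finitely many pieces -/
inductive Chain (r : ℕ) : AddSubgroup J → AddSubgroup J → Prop
  | refl (H : AddSubgroup J) : Chain r H H
  | step {H H' H'' : AddSubgroup J} : Chain r H H' → Nonempty (Piece r H' H'') → Chain r H H''

/-- the functions with values in `H` -/
def valued (H : AddSubgroup J) : AddSubgroup (GQ → J) where
  carrier := {c | ∀ σ, c σ ∈ H}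
  zero_mem' := fun _ => H.zero_mem
  add_mem' := fun ha hb σ => H.add_mem (ha σ) (hb σ)
  neg_mem' := fun ha σ => H.neg_mem (ha σ)

/-- `lam` is a character of `G` with values in the `r`-th roots of unity -/
def IsChar (r : ℕ) (G : AddSubgroup J) (lam : J → Qb) : Prop :=
  (∀ x ∈ G, ∀ y ∈ G, lam (x + y) = lam x * lam y) ∧ ∀ x ∈ G, lam x ^ r = 1

/-- The Selmer datum: `G` the Galois module (killed by `r`), `𝒞` a group of 1-cocycles with values in `G` satisfying
the local conditions (at ONE chosen place above each prime), `Tor` the toric part at `N`, `X0` and `Et`: see the header. -/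
structure SelData (r N : ℕ) (𝔄 : Places) (ζ : Qb) (Et : (GQ → Qb) → Prop) (G Tor X0 : AddSubgroup J)
    (𝒞 : AddSubgroup (GQ → J)) : Prop where
  gtors : ∀ g ∈ G, r • g = 0
  x0le : X0 ≤ G
  val : 𝒞 ≤ valued G
  coc : ∀ c ∈ 𝒞, ∀ σ τ : GQ, c (σ * τ) = c σ + σ • c τ
  fin : ∀ c ∈ 𝒞, ∃ F : IntermediateField ℚ Qb, FiniteDimensional ℚ F ∧
    ∀ σ : GQ, (∀ x ∈ F, σ x = x) → c σ = 0
  /-- unramified outside `r N` -/
  unr : ∀ c ∈ 𝒞, ∀ ℓ : ℕ, ℓ.Prime → ℓ ≠ r → ℓ ≠ N → ∀ τ ∈ (𝔄.pl ℓ).inertiaSubgroupIn ℚ, c τ = 0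
  /-- at `N`: values in the toric part -/
  atN : ∀ c ∈ 𝒞, ∀ τ ∈ (𝔄.pl N).inertiaSubgroupIn ℚ, c τ ∈ Tor
  /-- for odd `r`: `X0` detects the pieces `μ_r`, by means of ONE element `σ₀` which moves `ζ` -/
  typ : r ≠ 2 → ∃ (σ₀ : GQ) (k n : ℕ), σ₀ ζ = ζ ^ k ∧ ζ ^ k ≠ ζ ∧
    (∀ g ∈ G, (fun x : J => σ₀ • x - x)^[n] g ∈ X0) ∧
    (∀ g ∈ X0, (fun x : J => σ₀ • x - k • x)^[n] g = 0)
  /-- the condition on the quotients of type `ℤ/r` -/
  etc : ∀ c ∈ 𝒞, ∀ lam : J → Qb, IsChar r G lam → (∀ x ∈ X0, lam x = 1) →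
    IsHom (fun σ => lam (c σ)) → Et (fun σ => lam (c σ))
  /-- the condition on the quotients of type `μ_r` -/
  zc : ∀ c ∈ 𝒞, ∀ lam : J → Qb, IsChar r G lam →
    IsCoc (fun σ => lam (c σ)) → ValDvd r r (fun σ => lam (c σ))

/-- what block Q has to know about `Et` -/
structure EtBound (r N : ℕ) (𝔄 : Places) (Et : (GQ → Qb) → Prop) : Prop where
  q : ∀ h : GQ → Qb, (∀ σ, h σ ^ r = 1) → IsHom h → FinLevel h →
    (∀ ℓ : ℕ, ℓ.Prime → ℓ ≠ r → UnrAt (𝔄.pl ℓ) h) → Et h → h = fun _ => 1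
  t : ∃ S : Set (GQ → Qb), S.Finite ∧ S.ncard ≤ r ∧ ∀ h : GQ → Qb, (∀ σ, h σ ^ r = 1) → IsHom h → FinLevel h →
    (∀ ℓ : ℕ, ℓ.Prime → ℓ ≠ r → ℓ ≠ N → UnrAt (𝔄.pl ℓ) h) → Et h → h ∈ S

end Fermat.Agent.S15.Sel
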