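import Mathlib

/-!
# S15/S: extension of characters of elementary abelian `r`-groups (Mathlib only)

`V` an abelian group killed by the prime `r`, `H ≤ V`, `lam` multiplicative on `H` with values in the `r`-th roots of unity of a
field `Ω` containing a primitive `r`-th root of unity `ζ`.  Then `lam` extends to `V`.
Proof: `V` is a `ZMod r`-vector space (`AddCommGroup.zmodModule`); `lam x = ζ ^ (f x).val` for a unique additive (hence
`ZMod r`-linear) `f : H → ZMod r` (`IsPrimitiveRoot.eq_pow_of_pow_eq_one`, `IsPrimitiveRoot.pow_inj`;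
or `IsPrimitiveRoot.zmodEquivZPowers`); `LinearMap.exists_extend`; put `lam' x := ζ ^ (f' x).val`.

`exists_extend_char_trivial`: if moreover `lam = 1` on `H ⊓ X` then the extension can be chosen trivial on `X`.
Proof: `lam₁ (h + x) := lam h` is well defined and multiplicative on `H ⊔ X` (choose a decomposition with `AddSubgroup.mem_sup`;
two decompositions differ by an element of `H ⊓ X`), then `exists_extend_char` for `H ⊔ X`.
-/

set_option autoImplicit false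

namespace Fermat.Agent.S15.Sel

private theorem exists_extend_char_aux {V Ω : Type*} [AddCommGroup V] [Field Ω] (r : ℕ)
    [Fact r.Prime] [Module (ZMod r) V] (ζ : Ω) (hζ : IsPrimitiveRoot ζ r) (H : AddSubgroup V)
    (lam : V → Ω)
    (hmul : ∀ x ∈ H, ∀ y ∈ H, lam (x + y) = lam x * lam y) (hpow : ∀ x ∈ H, lam x ^ r = 1) :
    ∃ lam' : V → Ω, (∀ x y, lam' (x + y) = lam' x * lam' y) ∧ (∀ x, lam' x ^ r = 1) ∧
      ∀ x ∈ H, lam' x = lam x := by
  have hadd : ∀ a b : ZMod r, ζ ^ (a + b).val = ζ ^ a.val * ζ ^ b.val := by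
    intro a b
    rw [ZMod.val_add, ← pow_add, ← pow_eq_pow_mod _ hζ.pow_eq_one]
  have hinj : ∀ a b : ZMod r, ζ ^ a.val = ζ ^ b.val → a = b := by
    intro a b h
    exact ZMod.val_injective r (hζ.pow_inj (ZMod.val_lt a) (ZMod.val_lt b) h)
  have hex : ∀ x : H, ∃ a : ZMod r, ζ ^ a.val = lam x := by
    intro x
    obtain ⟨i, hi, hx⟩ := hζ.eq_pow_of_pow_eq_one (hpow x x.2)
    exact ⟨(i : ZMod r), by rw [ZMod.val_natCast_of_lt hi, hx]⟩
  choose f hf using hex
  let H' : Submodule (ZMod r) V := AddSubgroup.toZModSubmodule r H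
  have hH' : ∀ x : V, x ∈ H' ↔ x ∈ H := fun x => AddSubgroup.mem_toZModSubmodule r
  let f0 : H' →+ ZMod r :=
    AddMonoidHom.mk' (fun x => f ⟨x.1, (hH' _).1 x.2⟩) (by
      intro x y
      apply hinj
      rw [hadd, hf, hf, hf]
      exact hmul _ ((hH' _).1 x.2) _ ((hH' _).1 y.2))
  obtain ⟨g, hg⟩ := LinearMap.exists_extend (AddMonoidHom.toZModLinearMap r f0)
  refine ⟨fun x => ζ ^ (g x).val, ?_, ?_, ?_⟩
  · intro x y
    show ζ ^ (g (x + y)).val = _
    rw [map_add, hadd]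
  · intro x
    show (ζ ^ (g x).val) ^ r = 1
    rw [← pow_mul, mul_comm, pow_mul, hζ.pow_eq_one, one_pow]
  · intro x hx
    have h1 := LinearMap.congr_fun hg ⟨x, (hH' x).2 hx⟩
    have h2 : g x = f ⟨x, hx⟩ := h1
    show ζ ^ (g x).val = _
    rw [h2, hf]

theorem exists_extend_char {V Ω : Type*} [AddCommGroup V] [Field Ω] (r : ℕ) (hr : r.Prime)
    (hV : ∀ x : V, r • x = 0) (ζ : Ω) (hζ : IsPrimitiveRoot ζ r) (H : AddSubgroup V) (lam : V → Ω)
    (hmul : ∀ x ∈ H, ∀ y ∈ H, lam (x + y) = lam x * lam y) (hpow : ∀ x ∈ H, lam x ^ r = 1) :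
    ∃ lam' : V → Ω, (∀ x y, lam' (x + y) = lam' x * lam' y) ∧ (∀ x, lam' x ^ r = 1) ∧
      ∀ x ∈ H, lam' x = lam x :=
  @exists_extend_char_aux V Ω _ _ r ⟨hr⟩ (AddCommGroup.zmodModule hV) ζ hζ H lam hmul hpow

theorem exists_extend_char_trivial {V Ω : Type*} [AddCommGroup V] [Field Ω] (r : ℕ) (hr : r.Prime)
    (hV : ∀ x : V, r • x = 0) (ζ : Ω) (hζ : IsPrimitiveRoot ζ r) (H X : AddSubgroup V) (lam : V → Ω)
    (hmul : ∀ x ∈ H, ∀ y ∈ H, lam (x + y) = lam x * lam y) (hpow : ∀ x ∈ H, lam x ^ r = 1)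
    (htriv : ∀ x ∈ H, x ∈ X → lam x = 1) :
    ∃ lam' : V → Ω, (∀ x y, lam' (x + y) = lam' x * lam' y) ∧ (∀ x, lam' x ^ r = 1) ∧
      (∀ x ∈ H, lam' x = lam x) ∧ ∀ x ∈ X, lam' x = 1 := by
  classical
  have hdec : ∀ v : (H ⊔ X : AddSubgroup V), ∃ y ∈ H, ∃ z ∈ X, y + z = (v : V) :=
    fun v => AddSubgroup.mem_sup.1 v.2
  choose hy hyH hz hzX hyz using hdec
  let lam₁ : V → Ω := fun v => if h : v ∈ H ⊔ X then lam (hy ⟨v, h⟩) else 1
  have key : ∀ h ∈ H, ∀ x ∈ X, lam₁ (h + x) = lam h := by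
    intro h hh x hx
    have hmem : h + x ∈ H ⊔ X := AddSubgroup.mem_sup.2 ⟨h, hh, x, hx, rfl⟩
    show (if h' : h + x ∈ H ⊔ X then lam (hy ⟨h + x, h'⟩) else 1) = lam h
    rw [dif_pos hmem]
    set h' := hy ⟨h + x, hmem⟩ with hh'
    have h'H : h' ∈ H := hyH _
    have e : h' + hz ⟨h + x, hmem⟩ = h + x := hyz _
    have hd : h - h' = hz ⟨h + x, hmem⟩ - x := by
      rw [sub_eq_sub_iff_add_eq_add, add_comm (hz _) h', e]
    have h1 : lam (h - h') = 1 :=
      htriv _ (H.sub_mem hh h'H) (by rw [hd]; exact X.sub_mem (hzX _) hx)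
    have h2 := hmul h' h'H (h - h') (H.sub_mem hh h'H)
    rw [add_sub_cancel, h1, mul_one] at h2
    exact h2.symm
  obtain ⟨lam', h1, h2, h3⟩ := exists_extend_char r hr hV ζ hζ (H ⊔ X) lam₁ (by
      intro v hv w hw
      obtain ⟨a, ha, b, hb, rfl⟩ := AddSubgroup.mem_sup.1 hv
      obtain ⟨c, hc, d, hd, rfl⟩ := AddSubgroup.mem_sup.1 hw
      rw [add_add_add_comm, key _ (H.add_mem ha hc) _ (X.add_mem hb hd), key _ ha _ hb,
        key _ hc _ hd, hmul _ ha _ hc]) (by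
      intro v hv
      obtain ⟨a, ha, b, hb, rfl⟩ := AddSubgroup.mem_sup.1 hv
      rw [key _ ha _ hb]
      exact hpow a ha)
  refine ⟨lam', h1, h2, ?_, ?_⟩
  · intro x hx
    rw [h3 x (AddSubgroup.mem_sup_left hx)]
    have := key x hx 0 X.zero_mem
    rwa [add_zero] at this
  · intro x hx
    rw [h3 x (AddSubgroup.mem_sup_right hx)]
    have := key 0 H.zero_mem x hx
    rw [zero_add] at this
    rw [this]
    exact htriv 0 H.zero_mem X.zero_mem

end Fermat.Agent.S15.Sel
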