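import Fermat.Agent.S15.Sel.Kummer

/-!
# S15/S (FIN): `#(ε T)[r] ≤ #ε(T / r T)` for a finite abelian group `T` (Mathlib only + the definition `epsTors`)

* `exists_idem_iterate`: a self-map `f` of a finite type has an idempotent iterate `f^[n]`, `n > 0`.
  (`T → T` is finite, so `f^[a] = f^[a + b]` for some `a`, `b > 0` (`Finite.exists_ne_map_eq_of_infinite` on `ℕ → (T → T)`);
  then `f^[m] = f^[m + b * j]` for all `m ≥ a`, `j`; take `n := (a + 1) * b`: `n ≥ a`, `n + n = n + b * (a + 1)`.)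
* `card_epsTors_inf_le`: let `e := ε^[n]` be idempotent on `T`.
  - on `T[r]`: `e x = ε x` (induction, `ε` is idempotent on `T[r]` and preserves it), so `{x ∈ T | r x = 0, ε x = x} = (e T)[r]`;
  - modulo `r T`: `e x ≡ ε x` (induction with `hidem'`), so `ε T + r T = e T + r T`;
  - `e T ∩ r T = r (e T)` (`e x = r z` gives `e x = e (e x) = r (e z)`), so `[e T + r T : r T] = [e T : r (e T)]`
    (`AddSubgroup.relIndex_sup_right`, `AddSubgroup.inf_relIndex_right`);
  - for the finite group `E = e T`: `#E[r] = [E : r E]` (`AddSubgroup.card_mul_index`, first isomorphism theorem for `x ↦ r x`: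
    `AddMonoidHom.card_ker_mul_card_range`-type lemma / `AddSubgroup.index_ker`).
  Only `≤` is needed.
-/

set_option autoImplicit false

namespace Fermat.Agent.S15.Sel

theorem exists_idem_iterate {T : Type*} [Finite T] (f : T → T) :
    ∃ n : ℕ, 0 < n ∧ ∀ x, f^[n] (f^[n] x) = f^[n] x := by
  obtain ⟨a, b, hb, hab⟩ : ∃ a b : ℕ, 0 < b ∧ f^[a] = f^[a + b] := by
    obtain ⟨x, y, hxy, h⟩ := Finite.exists_ne_map_eq_of_infinite (fun k : ℕ => f^[k])
    rcases lt_or_gt_of_ne hxy with hlt | hlt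
    · exact ⟨x, y - x, by omega, by rw [Nat.add_sub_cancel' hlt.le]; exact h⟩
    · exact ⟨y, x - y, by omega, by rw [Nat.add_sub_cancel' hlt.le]; exact h.symm⟩
  have h1 : ∀ m, a ≤ m → f^[m] = f^[m + b] := by
    intro m hm
    obtain ⟨c, rfl⟩ := Nat.exists_eq_add_of_le hm
    rw [add_comm a c, Function.iterate_add, hab, ← Function.iterate_add, add_assoc]
  have h2 : ∀ m, a ≤ m → ∀ j, f^[m] = f^[m + b * j] := by
    intro m hm j
    induction j with
    | zero => rw [mul_zero, add_zero]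
    | succ j ih =>
      rw [ih, h1 (m + b * j) (le_trans hm (Nat.le_add_right _ _)), Nat.mul_succ, add_assoc]
  have hn : a ≤ (a + 1) * b := by nlinarith
  refine ⟨(a + 1) * b, Nat.mul_pos (Nat.succ_pos a) hb, fun x => ?_⟩
  rw [← Function.iterate_add_apply]
  have h3 := h2 ((a + 1) * b) hn (a + 1)
  rw [mul_comm b (a + 1)] at h3
  rw [← h3]

/-- kernel and cokernel of multiplication by `r` on a finite abelian group -/
theorem card_tors_eq_index {E : Type*} [AddCommGroup E] [Finite E] (r : ℕ) :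
    Nat.card {x : E // r • x = 0} = (AddMonoidHom.range (nsmulAddMonoidHom (α := E) r)).index := by
  set φ : E →+ E := nsmulAddMonoidHom (α := E) r with hφ
  have h0 : Nat.card {x : E // r • x = 0} = Nat.card φ.ker := rfl
  have h1 : Nat.card φ.ker * Nat.card φ.range = Nat.card E := by
    rw [← AddSubgroup.index_ker]
    exact AddSubgroup.card_mul_index _
  have h2 : Nat.card φ.range * φ.range.index = Nat.card E := AddSubgroup.card_mul_index _
  have h3 : 0 < Nat.card φ.range := Nat.card_pos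
  rw [h0]
  apply Nat.eq_of_mul_eq_mul_left h3
  rw [h2, ← h1, mul_comm]

theorem exists_addHom_iterate {J : Type*} [AddCommGroup J] (ε : J →+ J) (n : ℕ) :
    ∃ e : J →+ J, ∀ x, e x = ε^[n] x := by
  induction n with
  | zero => exact ⟨AddMonoidHom.id J, fun x => rfl⟩
  | succ n ih =>
    obtain ⟨e, he⟩ := ih
    exact ⟨ε.comp e, fun x => by rw [Function.iterate_succ_apply', ← he]; rfl⟩

theorem card_epsTors_inf_le {J : Type*} [AddCommGroup J] (r : ℕ) (hr : r.Prime) (ε : J →+ J)
    (T : AddSubgroup J) [Finite T] (hT : ∀ x ∈ T, ε x ∈ T)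
    (hidem : ∀ x ∈ T, r • x = 0 → ε (ε x) = ε x)
    (hidem' : ∀ x ∈ T, ∃ y ∈ T, ε (ε x) - ε x = r • y) :
    Nat.card ↥(epsTors r ε ⊓ T) ≤
      (T.map (nsmulAddMonoidHom r)).relIndex (T.map ε ⊔ T.map (nsmulAddMonoidHom r)) := by
  -- the idempotent iterate
  obtain ⟨n, hn0, hn⟩ := exists_idem_iterate (fun x : T => (⟨ε x, hT x x.2⟩ : T))
  have hcoe : ∀ (m : ℕ) (x : T),
      ((((fun x : T => (⟨ε x, hT x x.2⟩ : T))^[m]) x : T) : J) = ε^[m] (x : J) := by
    intro m x
    induction m with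
    | zero => rfl
    | succ m ih =>
      rw [Function.iterate_succ_apply', Function.iterate_succ_apply', ← ih]
  have hmemT : ∀ (m : ℕ), ∀ x ∈ T, ε^[m] x ∈ T := by
    intro m x hx
    have := hcoe m ⟨x, hx⟩
    rw [← this]
    exact Subtype.mem _
  obtain ⟨e, he_apply⟩ := exists_addHom_iterate ε n
  have hidemE : ∀ x ∈ T, e (e x) = e x := by
    intro x hx
    have h1 := congrArg (Subtype.val) (hn ⟨x, hx⟩)
    rw [hcoe, hcoe] at h1
    rw [he_apply, he_apply]
    exact h1
  have heT : ∀ x ∈ T, e x ∈ T := fun x hx => by rw [he_apply]; exact hmemT n x hx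
  have heε : ∀ x ∈ T, e x ∈ T.map ε := by
    intro x hx
    obtain ⟨m, rfl⟩ : ∃ m, n = m + 1 := ⟨n - 1, by omega⟩
    rw [he_apply, Function.iterate_succ_apply']
    exact AddSubgroup.mem_map_of_mem ε (hmemT m x hx)
  -- `E = e T`
  set E : AddSubgroup J := T.map e with hE
  have hET : E ≤ T := by
    rintro _ ⟨x, hx, rfl⟩
    exact heT x hx
  have hfinE : Finite E := Finite.of_injective _ (AddSubgroup.inclusion_injective hET)
  have hsup : T.map ε ⊔ T.map (nsmulAddMonoidHom r) ≤ T := by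
    refine sup_le ?_ ?_
    · rintro _ ⟨x, hx, rfl⟩
      exact hT x hx
    · rintro _ ⟨x, hx, rfl⟩
      exact T.nsmul_mem hx r
  have hfinS : Finite ↥(T.map ε ⊔ T.map (nsmulAddMonoidHom r)) :=
    Finite.of_injective _ (AddSubgroup.inclusion_injective hsup)
  -- (a)
  have ha : Nat.card ↥(epsTors r ε ⊓ T) ≤ Nat.card {x : E // r • x = 0} := by
    have hmem : ∀ x : ↥(epsTors r ε ⊓ T), (x : J) ∈ E := by
      intro x
      refine ⟨x, x.2.2, ?_⟩
      rw [he_apply]
      exact Function.iterate_fixed x.2.1.2 n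
    refine Nat.card_le_card_of_injective
      (fun x => (⟨⟨x, hmem x⟩, Subtype.ext x.2.1.1⟩ : {x : E // r • x = 0})) ?_
    intro x y hxy
    exact Subtype.ext (congrArg (fun z : {x : E // r • x = 0} => ((z : E) : J)) hxy)
  -- (b)
  have hb : Nat.card {x : E // r • x = 0} = (E.map (nsmulAddMonoidHom r)).relIndex E := by
    rw [card_tors_eq_index, AddSubgroup.relIndex]
    congr 1
    ext x
    constructor
    · rintro ⟨y, rfl⟩
      exact ⟨y, y.2, rfl⟩
    · rintro ⟨y, hy, hyx⟩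
      exact ⟨⟨y, hy⟩, Subtype.ext hyx⟩
  -- (c)
  have hinf : E.map (nsmulAddMonoidHom r) = E ⊓ T.map (nsmulAddMonoidHom r) := by
    apply le_antisymm
    · rintro _ ⟨y, hy, rfl⟩
      exact ⟨E.nsmul_mem hy r, ⟨y, hET hy, rfl⟩⟩
    · rintro y ⟨⟨x, hx, rfl⟩, ⟨z, hz, hzx⟩⟩
      refine ⟨e z, ⟨z, hz, rfl⟩, ?_⟩
      show r • e z = e x
      rw [← hidemE x hx, ← hzx]
      show r • e z = e (r • z)
      rw [map_nsmul]
  have hc : (E.map (nsmulAddMonoidHom r)).relIndex E ≤
      (T.map (nsmulAddMonoidHom r)).relIndex (T.map ε ⊔ T.map (nsmulAddMonoidHom r)) := by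
    rw [hinf, AddSubgroup.inf_relIndex_left]
    refine AddSubgroup.relIndex_le_of_le_right ?_ ?_
    · rintro _ ⟨x, hx, rfl⟩
      exact (le_sup_left : T.map ε ≤ _) (heε x hx)
    · exact AddSubgroup.index_ne_zero_of_finite
  exact ha.trans (hb.le.trans hc)

end Fermat.Agent.S15.Sel
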