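import Mathlib

/-!
# S15/S: the group of Kummer cocycles of the `ε`-part (Mathlib only)

`J` an `r`-divisible `Γ`-module, `ε` a `Γ`-equivariant endomorphism which is idempotent on `J[r]`, `M = J^Γ`, `G = ε J[r]`.
`kum ε R := (σ ↦ σ • ε R - ε R)`, `𝒵 := {kum ε R | r • R ∈ M}`.  Then
  `[ε M + r M : r M] * #G = #𝒵 * #(G ∩ M)`.
Proof.  `𝒵 → (ε M + r M) / r M`, `kum ε R ↦ ε (r R)`, is well defined (`kum ε R = 0` iff `ε R ∈ M`, then `ε (r R) = r (ε R) ∈ r M`), onto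
(divisibility) and its kernel is `{σ ↦ σ g - g | g ∈ G}`, of order `#G / #(G ∩ M)`: if `ε (r R) = r m` then `g' := ε R - m ∈ J[r]`,
`kum ε R = (σ ↦ σ g' - g')` has values in `G` (`σ R - R ∈ J[r]`), on which `ε = id`, so it equals `σ ↦ σ (ε g') - ε g'`.
Only the inequality `≤` is used downstream.
-/

set_option autoImplicit false

namespace Fermat.Agent.S15.Sel

variable {Γ J : Type*} [Group Γ] [AddCommGroup J] [DistribMulAction Γ J]

/-- the Kummer cocycle of `ε R` -/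
def kum (ε : J →+ J) (R : J) : Γ → J := fun σ => σ • ε R - ε R

/-- the fixed points -/
def fixedPts (Γ J : Type*) [Group Γ] [AddCommGroup J] [DistribMulAction Γ J] : AddSubgroup J :=
  FixedPoints.addSubgroup Γ J

/-- `G = ε J[r]` -/
def epsTors (r : ℕ) (ε : J →+ J) : AddSubgroup J where
  carrier := {g | r • g = 0 ∧ ε g = g}
  zero_mem' := ⟨smul_zero _, map_zero _⟩
  add_mem' := fun {a b} ha hb => ⟨by rw [smul_add, ha.1, hb.1, add_zero], by rw [map_add, ha.2, hb.2]⟩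
  neg_mem' := fun {a} ha => ⟨by rw [smul_neg, ha.1, neg_zero], by rw [map_neg, ha.2]⟩

/-- the group of Kummer cocycles -/
def kumGroup (Γ : Type*) {J : Type*} [Group Γ] [AddCommGroup J] [DistribMulAction Γ J] (r : ℕ)
    (ε : J →+ J) : AddSubgroup (Γ → J) where
  carrier := {c | ∃ R : J, r • R ∈ fixedPts Γ J ∧ c = kum ε R}
  zero_mem' := ⟨0, by simp [fixedPts, AddSubgroup.zero_mem], by funext σ; simp [kum]⟩
  add_mem' := by
    rintro _ _ ⟨R, hR, rfl⟩ ⟨R', hR', rfl⟩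
    exact ⟨R + R', by rw [smul_add]; exact AddSubgroup.add_mem _ hR hR',
      by funext σ; simp only [kum, Pi.add_apply, map_add, smul_add]; abel⟩
  neg_mem' := by
    rintro _ ⟨R, hR, rfl⟩
    exact ⟨-R, by rw [smul_neg]; exact AddSubgroup.neg_mem _ hR,
      by funext σ; simp only [kum, Pi.neg_apply, map_neg, smul_neg]; abel⟩

theorem kum_mem_epsTors (r : ℕ) (ε : J →+ J) (hε : ∀ (σ : Γ) (x : J), ε (σ • x) = σ • ε x)
    (hidem : ∀ x : J, r • x = 0 → ε (ε x) = ε x) (R : J) (hR : r • R ∈ fixedPts Γ J) (σ : Γ) :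
    kum ε R σ ∈ epsTors r ε := by
  have e : kum ε R σ = ε (σ • R - R) := by rw [kum, map_sub, hε]
  have h0 : r • (σ • R - R) = 0 := by
    have h1 : σ • (r • R) = r • R := hR σ
    rw [smul_sub, smul_comm, h1, sub_self]
  rw [e]
  exact ⟨by rw [← map_nsmul, h0, map_zero], hidem _ h0⟩

/-- `R ↦ kum ε R` as a homomorphism -/
def kumHom (Γ : Type*) {J : Type*} [Group Γ] [AddCommGroup J] [DistribMulAction Γ J]
    (ε : J →+ J) : J →+ (Γ → J) where
  toFun R := kum ε R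
  map_zero' := by funext σ; simp [kum]
  map_add' R R' := by funext σ; simp only [kum, Pi.add_apply, map_add, smul_add]; abel

theorem ker_kumHom (ε : J →+ J) : (kumHom Γ ε).ker = (fixedPts Γ J).comap ε := by
  ext R
  rw [AddMonoidHom.mem_ker, AddSubgroup.mem_comap]
  constructor
  · intro h σ
    have := congrFun h σ
    exact sub_eq_zero.mp this
  · intro h
    funext σ
    exact sub_eq_zero.mpr (h σ)

theorem kumGroup_eq_map (r : ℕ) (ε : J →+ J) :
    kumGroup Γ r ε = ((fixedPts Γ J).comap (nsmulAddMonoidHom r)).map (kumHom Γ ε) := by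
  ext c
  constructor
  · rintro ⟨R, hR, rfl⟩
    exact ⟨R, hR, rfl⟩
  · rintro ⟨R, hR, rfl⟩
    exact ⟨R, hR, rfl⟩

theorem relIndex_mul_card_le (r : ℕ) (ε : J →+ J) (hε : ∀ (σ : Γ) (x : J), ε (σ • x) = σ • ε x)
    (hidem : ∀ x : J, r • x = 0 → ε (ε x) = ε x) (hdiv : ∀ x : J, ∃ y : J, r • y = x)
    [Finite (epsTors r ε)] [Finite (kumGroup Γ r ε)] :
    ((fixedPts Γ J).map (nsmulAddMonoidHom r)).relIndex
        ((fixedPts Γ J).map ε ⊔ (fixedPts Γ J).map (nsmulAddMonoidHom r)) ≠ 0 ∧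
    (((fixedPts Γ J).map (nsmulAddMonoidHom r)).relIndex
        ((fixedPts Γ J).map ε ⊔ (fixedPts Γ J).map (nsmulAddMonoidHom r))) * Nat.card (epsTors r ε) ≤
      Nat.card (kumGroup Γ r ε) * Nat.card ↥(epsTors r ε ⊓ fixedPts Γ J) := by
  set M : AddSubgroup J := fixedPts Γ J with hM
  set rM : AddSubgroup J := M.map (nsmulAddMonoidHom r) with hrM
  set G : AddSubgroup J := epsTors r ε with hG
  set P : AddSubgroup J := M.comap (nsmulAddMonoidHom r) with hP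
  set K₀ : AddSubgroup J := M.comap ε with hK₀
  set ψ : J →+ J := ε.comp (nsmulAddMonoidHom r) with hψ
  set Λ₀ : AddSubgroup J := rM.comap ψ with hΛ₀
  -- (a) `#𝒵 = [P : K₀ ∩ P]`
  have ha : K₀.relIndex P = Nat.card (kumGroup Γ r ε) := by
    rw [hK₀, ← ker_kumHom, AddSubgroup.relIndex_ker, kumGroup_eq_map]
  -- (b) the index is `[P : Λ₀ ∩ P]`
  have hmap : P.map ψ = M.map ε := by
    ext x
    constructor
    · rintro ⟨R, hR, rfl⟩
      exact ⟨r • R, hR, rfl⟩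
    · rintro ⟨m, hm, rfl⟩
      obtain ⟨y, rfl⟩ := hdiv m
      exact ⟨y, hm, rfl⟩
  have hb : Λ₀.relIndex P = rM.relIndex (M.map ε ⊔ rM) := by
    rw [hΛ₀, AddSubgroup.relIndex_comap, hmap, AddSubgroup.relIndex_sup_right]
  have hK₀Λ₀ : K₀ ≤ Λ₀ := by
    intro R hR
    exact ⟨ε R, hR, by
      show r • ε R = ε (r • R)
      rw [map_nsmul]⟩
  have hmul : K₀.relIndex (Λ₀ ⊓ P) * Λ₀.relIndex P = K₀.relIndex P := by
    rw [AddSubgroup.relIndex_inf_mul_relIndex, inf_eq_left.mpr hK₀Λ₀]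
  have hZ0 : K₀.relIndex P ≠ 0 := by
    rw [ha]
    exact Nat.card_pos.ne'
  have h1 : K₀.relIndex (Λ₀ ⊓ P) ≠ 0 := fun h => hZ0 (by rw [← hmul, h, zero_mul])
  have h2 : Λ₀.relIndex P ≠ 0 := fun h => hZ0 (by rw [← hmul, h, mul_zero])
  have hGle : G ≤ Λ₀ ⊓ P := by
    intro g hg
    have hg0 : r • g = 0 := hg.1
    refine ⟨?_, ?_⟩
    · show ε (r • g) ∈ rM
      rw [hg0, map_zero]
      exact rM.zero_mem
    · show r • g ∈ M
      rw [hg0]
      exact M.zero_mem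
  have h3 : K₀.relIndex G ≤ K₀.relIndex (Λ₀ ⊓ P) := AddSubgroup.relIndex_le_of_le_right hGle h1
  have hinf : K₀ ⊓ G = G ⊓ M := by
    ext g
    constructor
    · rintro ⟨h, hg⟩
      refine ⟨hg, ?_⟩
      have h' : ε g ∈ M := h
      rwa [hg.2] at h'
    · rintro ⟨hg, h⟩
      refine ⟨?_, hg⟩
      show ε g ∈ M
      rwa [hg.2]
  have h4 : Nat.card ↥(G ⊓ M) * K₀.relIndex G = Nat.card G := by
    rw [← AddSubgroup.inf_relIndex_right K₀ G, hinf, ← AddSubgroup.relIndex_bot_left,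
      ← AddSubgroup.relIndex_bot_left, AddSubgroup.relIndex_mul_relIndex _ _ _ bot_le inf_le_left]
  rw [← hb]
  refine ⟨h2, ?_⟩
  rw [← ha, ← hmul, ← h4]
  calc Λ₀.relIndex P * (Nat.card ↥(G ⊓ M) * K₀.relIndex G)
      ≤ Λ₀.relIndex P * (Nat.card ↥(G ⊓ M) * K₀.relIndex (Λ₀ ⊓ P)) :=
        Nat.mul_le_mul_left _ (Nat.mul_le_mul_left _ h3)
    _ = K₀.relIndex (Λ₀ ⊓ P) * Λ₀.relIndex P * Nat.card ↥(G ⊓ M) := by ring

end Fermat.Agent.S15.Sel
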