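import Mathlib

/-!
# S15/S (FIN): an index comparison (Mathlib only)

`T ≤ M` subgroups of `J`, `T` saturated for `r` in `M` (`r m ∈ T → m ∈ T`).  Put `a = [ε M + r M : r M] ≠ 0`, `b = [ε T + r T : r T]`.
If `a ≤ b` then `ε M ≤ ε T + r M`.
Proof.  `K := ε T ⊔ r T`.  `K ⊓ r M = r T` (an element of `K ≤ T` [needs `ε T ≤ T`] of the form `r m` has `m ∈ T`), so
`b = (r T).relIndex K = (r M ⊓ K).relIndex K = (r M).relIndex K` (`AddSubgroup.inf_relIndex_right`)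
`= (r M).relIndex (K ⊔ r M)` (`AddSubgroup.relIndex_sup_right`) `= (r M).relIndex (ε T ⊔ r M) =: b'`.
`r M ≤ ε T ⊔ r M ≤ ε M ⊔ r M`: `a = b' * x` with `x = (ε T ⊔ r M).relIndex (ε M ⊔ r M)` (`AddSubgroup.relIndex_mul_relIndex`).
`a ≠ 0`, `a ≤ b = b'` give `x = 1`, i.e. `ε M ⊔ r M ≤ ε T ⊔ r M` (`AddSubgroup.relIndex_eq_one`).
-/

set_option autoImplicit false

namespace Fermat.Agent.S15.Sel

theorem map_le_of_relIndex_le {J : Type*} [AddCommGroup J] (r : ℕ) (ε : J →+ J) (M T : AddSubgroup J)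
    (hTM : T ≤ M) (hT : ∀ x ∈ T, ε x ∈ T) (hsat : ∀ m ∈ M, r • m ∈ T → m ∈ T)
    (ha : (M.map (nsmulAddMonoidHom r)).relIndex (M.map ε ⊔ M.map (nsmulAddMonoidHom r)) ≠ 0)
    (hab : (M.map (nsmulAddMonoidHom r)).relIndex (M.map ε ⊔ M.map (nsmulAddMonoidHom r)) ≤
      (T.map (nsmulAddMonoidHom r)).relIndex (T.map ε ⊔ T.map (nsmulAddMonoidHom r))) :
    M.map ε ≤ T.map ε ⊔ M.map (nsmulAddMonoidHom r) := by
  set rM := M.map (nsmulAddMonoidHom r) with hrM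
  set rT := T.map (nsmulAddMonoidHom r) with hrT
  set K := T.map ε ⊔ rT with hK
  have hrTM : rT ≤ rM := AddSubgroup.map_mono hTM
  have hKT : K ≤ T := by
    refine sup_le ?_ ?_
    · rintro _ ⟨x, hx, rfl⟩
      exact hT x hx
    · rintro _ ⟨x, hx, rfl⟩
      exact T.nsmul_mem hx r
  have hinf : rM ⊓ K = rT := by
    apply le_antisymm
    · rintro y ⟨⟨m, hm, rfl⟩, hy⟩
      exact ⟨m, hsat m hm (hKT hy), rfl⟩
    · exact le_inf hrTM le_sup_right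
  have hsup : K ⊔ rM = T.map ε ⊔ rM := by
    rw [hK, sup_assoc, sup_eq_right.2 hrTM]
  have hb : rT.relIndex K = rM.relIndex (T.map ε ⊔ rM) := by
    rw [← hinf, AddSubgroup.inf_relIndex_right, ← hsup, AddSubgroup.relIndex_sup_right]
  have hle : T.map ε ⊔ rM ≤ M.map ε ⊔ rM := sup_le_sup_right (AddSubgroup.map_mono hTM) _
  have hmul := AddSubgroup.relIndex_mul_relIndex rM (T.map ε ⊔ rM) (M.map ε ⊔ rM) le_sup_right hle
  rw [hb] at hab
  have hx : (T.map ε ⊔ rM).relIndex (M.map ε ⊔ rM) = 1 := by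
    set b' := rM.relIndex (T.map ε ⊔ rM)
    set x := (T.map ε ⊔ rM).relIndex (M.map ε ⊔ rM)
    rw [← hmul] at ha hab
    have hb0 : b' ≠ 0 := fun h => ha (by rw [h, zero_mul])
    have hx0 : x ≠ 0 := fun h => ha (by rw [h, mul_zero])
    have h1 : b' * x ≤ b' * 1 := by rwa [mul_one]
    have h2 : x ≤ 1 := Nat.le_of_mul_le_mul_left h1 (Nat.pos_of_ne_zero hb0)
    omega
  exact le_sup_left.trans (AddSubgroup.relIndex_eq_one.1 hx)

end Fermat.Agent.S15.Sel
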