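import Fermat.Agent.S15.Sel.FinTors
import Fermat.Agent.S15.Sel.RelIndex

/-!
# S15/S (FIN): if there are at most `#G` Kummer cocycles then `ε M ⊆ r M + M_tors`

`M = J^Γ` finitely generated, `T = torsPts Γ J` its torsion subgroup.
* `finite_torsPts`: a subgroup of a f.g. abelian group is f.g. (`AddSubgroup.FG` ↔ `Module.Finite ℤ`/noetherian: `AddSubgroup.fg_iff_addGroup_fg`?,
  `Module.Finite.iff_addGroup_fg`, `IsNoetherian`), torsion + f.g. is finite (`AddCommGroup.finite_of_fg_isAddTorsion`).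
* `eps_mem_fixedPts`: `ε` preserves `M` (equivariance), and `T`.
* `eps_sq_sub`: for `x ∈ M`: `x = r R`, `y := ε (ε R) - ε R` is fixed by `Γ` (`σ y - y = (ε² - ε)(σ R - R)` and `σ R - R ∈ J[r]`), `ε (ε x) - ε x = r y`;
  if `x` is torsion then so are `R` and `y`.
* `eps_fixed_le`: `kumGroup Γ r ε` is contained in `ZZ`, hence finite with at most `#G` elements; `relIndex_mul_card_le` gives
  `a * #G ≤ #G * #(G ⊓ M)`, `a ≠ 0`, so `a ≤ #(G ⊓ M)`; `G ⊓ M = G ⊓ T`; `card_epsTors_inf_le` gives `#(G ⊓ T) ≤ b`; `map_le_of_relIndex_le`.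
-/

set_option autoImplicit false

namespace Fermat.Agent.S15.Sel

variable {Γ J : Type*} [Group Γ] [AddCommGroup J] [DistribMulAction Γ J]

/-- the torsion subgroup of `J^Γ` -/
def torsPts (Γ J : Type*) [Group Γ] [AddCommGroup J] [DistribMulAction Γ J] : AddSubgroup J where
  carrier := {x | x ∈ fixedPts Γ J ∧ ∃ k : ℕ, 0 < k ∧ k • x = 0}
  zero_mem' := ⟨AddSubgroup.zero_mem _, 1, one_pos, smul_zero _⟩
  add_mem' := by
    rintro a b ⟨ha, k, hk, hka⟩ ⟨hb, l, hl, hlb⟩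
    refine ⟨AddSubgroup.add_mem _ ha hb, k * l, Nat.mul_pos hk hl, ?_⟩
    rw [smul_add, mul_comm k l, mul_smul, hka, smul_zero, mul_comm l k, mul_smul, hlb, smul_zero,
      add_zero]
  neg_mem' := by
    rintro a ⟨ha, k, hk, hka⟩
    exact ⟨AddSubgroup.neg_mem _ ha, k, hk, by rw [smul_neg, hka, neg_zero]⟩

theorem torsPts_le_fixedPts : torsPts Γ J ≤ fixedPts Γ J := fun _ hx => hx.1

theorem finite_torsPts (hfg : (fixedPts Γ J).FG) : Finite (torsPts Γ J) := by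
  haveI h1 : AddGroup.FG (fixedPts Γ J) := (AddGroup.fg_iff_addSubgroup_fg _).mpr hfg
  haveI h2 : Module.Finite ℤ (fixedPts Γ J) := Module.Finite.iff_addGroup_fg.mpr h1
  haveI h3 : IsNoetherian ℤ (fixedPts Γ J) := isNoetherian_of_isNoetherianRing_of_finite ℤ _
  let T' : Submodule ℤ (fixedPts Γ J) :=
    AddSubgroup.toIntSubmodule ((torsPts Γ J).addSubgroupOf (fixedPts Γ J))
  haveI h4 : Module.Finite ℤ T' := Module.Finite.of_fg (IsNoetherian.noetherian T')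
  have h5 : Module.IsTorsion ℤ T' := by
    rintro ⟨⟨x, hxM⟩, hx⟩
    have hx' : x ∈ torsPts Γ J := hx
    obtain ⟨-, k, hk, hkx⟩ := hx'
    refine ⟨⟨(k : ℤ), ?_⟩, ?_⟩
    · exact mem_nonZeroDivisors_of_ne_zero (by exact_mod_cast hk.ne')
    · apply Subtype.ext
      apply Subtype.ext
      change ((k : ℤ) • x : J) = 0
      rw [natCast_zsmul, hkx]
  haveI h6 : Finite T' := Module.finite_of_fg_torsion T' h5
  refine Finite.of_injective
    (fun x : torsPts Γ J => (⟨⟨x.1, x.2.1⟩, x.2⟩ : T')) ?_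
  intro x y hxy
  apply Subtype.ext
  exact congrArg (fun z : T' => ((z : fixedPts Γ J) : J)) hxy

theorem eps_mem_fixedPts (ε : J →+ J) (hε : ∀ (σ : Γ) (x : J), ε (σ • x) = σ • ε x) (x : J)
    (hx : x ∈ fixedPts Γ J) : ε x ∈ fixedPts Γ J := by
  intro σ
  have h : σ • x = x := hx σ
  rw [← hε, h]

theorem eps_mem_torsPts (ε : J →+ J) (hε : ∀ (σ : Γ) (x : J), ε (σ • x) = σ • ε x) (x : J)
    (hx : x ∈ torsPts Γ J) : ε x ∈ torsPts Γ J := by
  obtain ⟨hxM, k, hk, hkx⟩ := hx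
  exact ⟨eps_mem_fixedPts ε hε x hxM, k, hk, by rw [← map_nsmul, hkx, map_zero]⟩

theorem eps_sq_sub (r : ℕ) (hr : r.Prime) (ε : J →+ J)
    (hε : ∀ (σ : Γ) (x : J), ε (σ • x) = σ • ε x)
    (hidem : ∀ x : J, r • x = 0 → ε (ε x) = ε x) (hdiv : ∀ x : J, ∃ y : J, r • y = x) (x : J)
    (hx : x ∈ torsPts Γ J) : ∃ y ∈ torsPts Γ J, ε (ε x) - ε x = r • y := by
  obtain ⟨hxM, k, hk, hkx⟩ := hx
  obtain ⟨R, rfl⟩ := hdiv x
  refine ⟨ε (ε R) - ε R, ⟨?_, k * r, Nat.mul_pos hk hr.pos, ?_⟩, ?_⟩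
  · intro σ
    have h1 : σ • (r • R) = r • R := hxM σ
    have h2 : r • (σ • R - R) = 0 := by
      rw [smul_sub, ← h1, smul_comm σ r R, sub_self]
    have h3 := hidem _ h2
    simp only [map_sub, hε] at h3
    rw [smul_sub]
    have h4 : σ • ε (ε R) - σ • ε R - (ε (ε R) - ε R) = 0 := by
      have : σ • ε (ε R) - σ • ε R - (ε (ε R) - ε R)
          = (σ • ε (ε R) - ε (ε R)) - (σ • ε R - ε R) := by abel
      rw [this, h3, sub_self]
    exact sub_eq_zero.mp h4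
  · simp only [mul_smul, smul_sub, ← map_nsmul, hkx, map_zero, sub_self]
  · simp only [smul_sub, map_nsmul]

theorem eps_fixed_le (r : ℕ) (hr : r.Prime) (ε : J →+ J)
    (hε : ∀ (σ : Γ) (x : J), ε (σ • x) = σ • ε x)
    (hidem : ∀ x : J, r • x = 0 → ε (ε x) = ε x) (hdiv : ∀ x : J, ∃ y : J, r • y = x)
    (hfg : (fixedPts Γ J).FG) [Finite (epsTors r ε)] (ZZ : Set (Γ → J)) (hZZ : ZZ.Finite)
    (hsub : ∀ R : J, r • R ∈ fixedPts Γ J → kum ε R ∈ ZZ)
    (hcard : ZZ.ncard ≤ Nat.card (epsTors r ε)) :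
    ∀ m ∈ fixedPts Γ J, ∃ m' ∈ fixedPts Γ J, ∃ t ∈ torsPts Γ J, ε m = r • m' + t := by
  classical
  -- the group of Kummer cocycles is finite with at most `#G` elements
  have hKsub : ((kumGroup Γ r ε : AddSubgroup (Γ → J)) : Set (Γ → J)) ⊆ ZZ := by
    rintro _ ⟨R, hR, rfl⟩
    exact hsub R hR
  have hKfin : ((kumGroup Γ r ε : AddSubgroup (Γ → J)) : Set (Γ → J)).Finite := hZZ.subset hKsub
  haveI : Finite (kumGroup Γ r ε) := hKfin.to_subtype
  have hKcard : Nat.card (kumGroup Γ r ε) ≤ Nat.card (epsTors r ε) := by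
    have h1 : Nat.card (kumGroup Γ r ε)
        = ((kumGroup Γ r ε : AddSubgroup (Γ → J)) : Set (Γ → J)).ncard := rfl
    rw [h1]
    exact (Set.ncard_le_ncard hKsub hZZ).trans hcard
  obtain ⟨ha, hle⟩ := relIndex_mul_card_le (Γ := Γ) r ε hε hidem hdiv
  have hGpos : 0 < Nat.card (epsTors r ε) := Nat.card_pos
  have ha' : ((fixedPts Γ J).map (nsmulAddMonoidHom r)).relIndex
      ((fixedPts Γ J).map ε ⊔ (fixedPts Γ J).map (nsmulAddMonoidHom r)) ≤
      Nat.card ↥(epsTors r ε ⊓ fixedPts Γ J) := by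
    have h2 := hle.trans (Nat.mul_le_mul_right _ hKcard)
    rw [mul_comm (Nat.card (epsTors r ε))] at h2
    exact Nat.le_of_mul_le_mul_right h2 hGpos
  have hGM : epsTors r ε ⊓ fixedPts Γ J = epsTors r ε ⊓ torsPts Γ J := by
    ext x
    constructor
    · rintro ⟨hx1, hx2⟩
      exact ⟨hx1, hx2, r, hr.pos, hx1.1⟩
    · rintro ⟨hx1, hx2⟩
      exact ⟨hx1, hx2.1⟩
  haveI : Finite (torsPts Γ J) := finite_torsPts hfg
  have hb := card_epsTors_inf_le r hr ε (torsPts Γ J) (eps_mem_torsPts ε hε)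
    (fun x _ hx => hidem x hx) (eps_sq_sub r hr ε hε hidem hdiv)
  rw [hGM] at ha'
  have hmain := map_le_of_relIndex_le r ε (fixedPts Γ J) (torsPts Γ J) torsPts_le_fixedPts
    (eps_mem_torsPts ε hε)
    (by
      rintro m hm ⟨-, k, hk, hkm⟩
      exact ⟨hm, k * r, Nat.mul_pos hk hr.pos, by rw [mul_smul, hkm]⟩)
    ha (ha'.trans hb)
  intro m hm
  have h3 : ε m ∈ (torsPts Γ J).map ε ⊔ (fixedPts Γ J).map (nsmulAddMonoidHom r) :=
    hmain ⟨m, hm, rfl⟩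
  obtain ⟨t, ⟨t0, ht0, rfl⟩, y, ⟨m', hm', rfl⟩, hsum⟩ := AddSubgroup.mem_sup.mp h3
  refine ⟨m', hm', ε t0, eps_mem_torsPts ε hε t0 ht0, ?_⟩
  rw [← hsum, add_comm]
  rfl

end Fermat.Agent.S15.Sel
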