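import Fermat.Agent.S15.Sel.Defs
import Fermat.Agent.S15.Sel.Extend

/-!
# S15/S: the type (`X0 ⊓ H'' ≤ H'` or not) of a piece determines its Galois action; the induced conditions on a piece

`P : Piece r H' H''`, `D : SelData ..`, `c ∈ 𝒞` with values in `H''`, `h := fun σ => P.ι (c σ)`.
* `Piece.h_pow`, `Piece.h_finLevel`, `Piece.h_unr`: immediate (`P.ι 0 = 1` by `P.ker`).
* `Piece.isHom_of_inv` / `Piece.isCoc_of_equiv`: from `D.coc`, `P.map_add` (`σ • c τ ∈ H''` by `P.stable`).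
* `Piece.inv_iff_equiv_two`: for `r = 2` the values of `ι` on `H''` are `±1`, so both alternatives of `P.equiv` hold.
* key remark for odd `r` (`σ₀, k, n` from `D.typ`): if `u ^ r = 1` and `u ^ k = u` then `u = 1` (otherwise `u` is a primitive `r`-th root
  of unity (`r` prime), `ζ` is a power of `u`, so `ζ ^ k = ζ`).  Also `σ₀ u = u ^ k` for every `u` with `u ^ r = 1` (`u` is a power of `ζ`).
* `Piece.inv_of_et`: if `X0 ⊓ H'' ≤ H'` (et-type) then `ι` is invariant.  `r = 2`: previous item.  `r` odd: suppose `ι` is equivariant.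
  `D x := σ₀ • x - x` maps `H''` to `H''` and `ι (D x) * ι x = σ₀ (ι x) = ι x ^ k`; so `ι (D x) = 1` implies `ι x = 1`.  By induction
  `ι (D^[n] x) = 1` implies `ι x = 1`.  For `x ∈ H'' ≤ G`: `D^[n] x ∈ X0 ⊓ H'' ≤ H'`.  Hence `ι = 1` on `H''` and `ι` is invariant.
* `Piece.equiv_of_zero`: if `x₀ ∈ X0 ⊓ H''`, `x₀ ∉ H'` (0-type) then `ι` is equivariant.  `r` odd: suppose `ι` invariant; `E x := σ₀ • x - k • x` maps
  `H''` to `H''`, `ι (E x) * ι x ^ k = ι x`; so `ι (E x) = 1` implies `ι x = 1`; `E^[n] x₀ = 0`, so `ι x₀ = 1`, `x₀ ∈ H'`: contradiction.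
* `Piece.h_unr_N`: q-type (`Tor ⊓ H'' ≤ H'`) gives `UnrAt` at `N`.
* `Piece.h_et`: et-type: extend `ι` from `H''` to a character `lam` of `G` which is trivial on `X0` (`exists_extend_char_trivial` applied to `V = ↥G`; put
  `lam x := if h : x ∈ G then lam' ⟨x, h⟩ else 1`), `D.etc`; `lam (c σ) = ι (c σ)` because `c σ ∈ H''`.
* `Piece.h_valDvd`: the same with `exists_extend_char` and `D.zc`.
-/

set_option autoImplicit false

namespace Fermat.Agent.S15.Sel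

open Fermat.Agent.Lib.InertiaField Fermat.Agent.S15.Q

variable {J : Type*} [AddCommGroup J] [DistribMulAction GQ J] {r N : ℕ} {𝔄 : Places} {ζ : Qb}
  {Et : (GQ → Qb) → Prop} {G Tor X0 : AddSubgroup J} {𝒞 : AddSubgroup (GQ → J)}
  {H' H'' : AddSubgroup J}

theorem Piece.Types_ι_zero (P : Piece r H' H'') : P.ι 0 = 1 :=
  (P.ker 0 H''.zero_mem).2 H'.zero_mem

theorem Piece.Types_ι_nsmul (P : Piece r H' H'') (k : ℕ) (x : J) (hx : x ∈ H'') :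
    P.ι (k • x) = P.ι x ^ k := by
  induction k with
  | zero => rw [zero_smul, pow_zero, P.Types_ι_zero]
  | succ k ih =>
    rw [succ_nsmul, P.map_add _ (H''.nsmul_mem hx k) _ hx, ih, pow_succ]

/-- key remark: a root of unity of prime order fixed by `u ↦ u ^ k` is trivial -/
theorem Types_eq_one_of_pow {r k : ℕ} {ζ u : Qb} (hr : r.Prime) (hζ : IsPrimitiveRoot ζ r)
    (hk : ζ ^ k ≠ ζ) (hu : u ^ r = 1) (huk : u ^ k = u) : u = 1 := by
  by_contra h1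
  haveI : Fact r.Prime := ⟨hr⟩
  have ho : orderOf u = r := orderOf_eq_prime hu h1
  have hp : IsPrimitiveRoot u r := ho ▸ IsPrimitiveRoot.orderOf u
  obtain ⟨i, -, hi⟩ := hp.eq_pow_of_pow_eq_one hζ.pow_eq_one
  apply hk
  rw [← hi, ← pow_mul, mul_comm, pow_mul, huk]

theorem Types_map_pow {r k : ℕ} {ζ u : Qb} (hr : r.Prime) (hζ : IsPrimitiveRoot ζ r) (σ₀ : GQ)
    (hσ : σ₀ ζ = ζ ^ k) (hu : u ^ r = 1) : σ₀ u = u ^ k := by
  haveI : NeZero r := ⟨hr.ne_zero⟩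
  obtain ⟨i, -, hi⟩ := hζ.eq_pow_of_pow_eq_one hu
  rw [← hi, map_pow, hσ, ← pow_mul, ← pow_mul, mul_comm]

/-- for `r = 2` the two alternatives coincide -/
theorem Piece.Types_fix_two (P : Piece 2 H' H'') (σ : GQ) (x : J) (hx : x ∈ H'') :
    σ (P.ι x) = P.ι x := by
  have h := P.pow x hx
  rcases sq_eq_one_iff.1 h with h1 | h1 <;> rw [h1] <;> simp

theorem Piece.h_pow (P : Piece r H' H'') (c : GQ → J) (hc : c ∈ valued H'') (σ : GQ) :
    P.ι (c σ) ^ r = 1 := P.pow _ (hc σ)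

theorem Piece.h_finLevel (P : Piece r H' H'') (D : SelData r N 𝔄 ζ Et G Tor X0 𝒞) (c : GQ → J)
    (hc : c ∈ 𝒞) : FinLevel (fun σ => P.ι (c σ)) := by
  obtain ⟨F, hF, h⟩ := D.fin c hc
  exact ⟨F, hF, fun σ hσ => by show P.ι (c σ) = 1; rw [h σ hσ, P.Types_ι_zero]⟩

theorem Piece.h_unr (P : Piece r H' H'') (D : SelData r N 𝔄 ζ Et G Tor X0 𝒞) (c : GQ → J)
    (hc : c ∈ 𝒞) (ℓ : ℕ) (hℓ : ℓ.Prime) (hℓr : ℓ ≠ r) (hℓN : ℓ ≠ N) :
    UnrAt (𝔄.pl ℓ) (fun σ => P.ι (c σ)) := by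
  intro τ hτ
  show P.ι (c τ) = 1
  rw [D.unr c hc ℓ hℓ hℓr hℓN τ hτ, P.Types_ι_zero]

theorem Piece.isHom_of_inv (P : Piece r H' H'') (D : SelData r N 𝔄 ζ Et G Tor X0 𝒞)
    (hinv : ∀ (σ : GQ), ∀ x ∈ H'', P.ι (σ • x) = P.ι x) (c : GQ → J) (hc : c ∈ 𝒞)
    (hv : c ∈ valued H'') : IsHom (fun σ => P.ι (c σ)) := by
  intro σ τ
  show P.ι (c (σ * τ)) = P.ι (c σ) * P.ι (c τ)
  rw [D.coc c hc, P.map_add _ (hv σ) _ (P.stable σ _ (hv τ)), hinv σ _ (hv τ)]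

theorem Piece.isCoc_of_equiv (P : Piece r H' H'') (D : SelData r N 𝔄 ζ Et G Tor X0 𝒞)
    (heq : ∀ (σ : GQ), ∀ x ∈ H'', P.ι (σ • x) = σ (P.ι x)) (c : GQ → J) (hc : c ∈ 𝒞)
    (hv : c ∈ valued H'') : IsCoc (fun σ => P.ι (c σ)) := by
  intro σ τ
  show P.ι (c (σ * τ)) = P.ι (c σ) * σ (P.ι (c τ))
  rw [D.coc c hc, P.map_add _ (hv σ) _ (P.stable σ _ (hv τ)), heq σ _ (hv τ)]

theorem Piece.inv_of_et (P : Piece r H' H'') (D : SelData r N 𝔄 ζ Et G Tor X0 𝒞) (hr : r.Prime)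
    (hζ : IsPrimitiveRoot ζ r) (hH : H'' ≤ G) (het : X0 ⊓ H'' ≤ H') :
    ∀ (σ : GQ), ∀ x ∈ H'', P.ι (σ • x) = P.ι x := by
  rcases P.equiv with h | heq
  · exact h
  by_cases hr2 : r = 2
  · subst hr2
    intro σ x hx
    rw [heq σ x hx, P.Types_fix_two σ x hx]
  obtain ⟨σ₀, k, n, hσ, hk, hG, -⟩ := D.typ hr2
  have hmem : ∀ x ∈ H'', σ₀ • x - x ∈ H'' := fun x hx => H''.sub_mem (P.stable σ₀ x hx) hx
  have hstep : ∀ x ∈ H'', P.ι (σ₀ • x - x) = 1 → P.ι x = 1 := by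
    intro x hx h1
    have h2 : P.ι (σ₀ • x - x) * P.ι x = P.ι x ^ k := by
      rw [← P.map_add _ (hmem x hx) _ hx, sub_add_cancel, heq σ₀ x hx,
        Types_map_pow hr hζ σ₀ hσ (P.pow x hx)]
    rw [h1, one_mul] at h2
    exact Types_eq_one_of_pow hr hζ hk (P.pow x hx) h2.symm
  have hiter : ∀ m : ℕ, ∀ x ∈ H'', (fun x : J => σ₀ • x - x)^[m] x ∈ H'' ∧
      (P.ι ((fun x : J => σ₀ • x - x)^[m] x) = 1 → P.ι x = 1) := by
    intro m
    induction m with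
    | zero => intro x hx; exact ⟨hx, fun h => h⟩
    | succ m ih =>
      intro x hx
      rw [Function.iterate_succ_apply]
      obtain ⟨h1, h2⟩ := ih _ (hmem x hx)
      exact ⟨h1, fun h => hstep x hx (h2 h)⟩
  have hone : ∀ x ∈ H'', P.ι x = 1 := by
    intro x hx
    obtain ⟨h1, h2⟩ := hiter n x hx
    exact h2 ((P.ker _ h1).2 (het ⟨hG x (hH hx), h1⟩))
  intro σ x hx
  rw [hone x hx, hone _ (P.stable σ x hx)]

theorem Piece.equiv_of_zero (P : Piece r H' H'') (D : SelData r N 𝔄 ζ Et G Tor X0 𝒞) (hr : r.Prime)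
    (hζ : IsPrimitiveRoot ζ r) (x₀ : J) (hx₀ : x₀ ∈ X0 ⊓ H'') (hx₀' : x₀ ∉ H') :
    ∀ (σ : GQ), ∀ x ∈ H'', P.ι (σ • x) = σ (P.ι x) := by
  rcases P.equiv with hinv | h
  swap
  · exact h
  by_cases hr2 : r = 2
  · subst hr2
    intro σ x hx
    rw [hinv σ x hx, P.Types_fix_two σ x hx]
  exfalso
  obtain ⟨σ₀, k, n, hσ, hk, -, hX⟩ := D.typ hr2
  have hmem : ∀ x ∈ H'', σ₀ • x - k • x ∈ H'' :=
    fun x hx => H''.sub_mem (P.stable σ₀ x hx) (H''.nsmul_mem hx k)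
  have hstep : ∀ x ∈ H'', P.ι (σ₀ • x - k • x) = 1 → P.ι x = 1 := by
    intro x hx h1
    have h2 : P.ι (σ₀ • x - k • x) * P.ι x ^ k = P.ι x := by
      rw [← P.Types_ι_nsmul k x hx, ← P.map_add _ (hmem x hx) _ (H''.nsmul_mem hx k),
        sub_add_cancel, hinv σ₀ x hx]
    rw [h1, one_mul] at h2
    exact Types_eq_one_of_pow hr hζ hk (P.pow x hx) h2
  have hiter : ∀ m : ℕ, ∀ x ∈ H'', (fun x : J => σ₀ • x - k • x)^[m] x ∈ H'' ∧
      (P.ι ((fun x : J => σ₀ • x - k • x)^[m] x) = 1 → P.ι x = 1) := by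
    intro m
    induction m with
    | zero => intro x hx; exact ⟨hx, fun h => h⟩
    | succ m ih =>
      intro x hx
      rw [Function.iterate_succ_apply]
      obtain ⟨h1, h2⟩ := ih _ (hmem x hx)
      exact ⟨h1, fun h => hstep x hx (h2 h)⟩
  have h1 := (hiter n x₀ hx₀.2).2 (by rw [hX x₀ hx₀.1, P.Types_ι_zero])
  exact hx₀' ((P.ker x₀ hx₀.2).1 h1)

theorem Piece.h_unr_N (P : Piece r H' H'') (D : SelData r N 𝔄 ζ Et G Tor X0 𝒞) (hq : Tor ⊓ H'' ≤ H')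
    (c : GQ → J) (hc : c ∈ 𝒞) (hv : c ∈ valued H'') : UnrAt (𝔄.pl N) (fun σ => P.ι (c σ)) := by
  intro τ hτ
  exact (P.ker _ (hv τ)).2 (hq ⟨D.atN c hc τ hτ, hv τ⟩)

open Classical in
theorem Piece.h_et (P : Piece r H' H'') (D : SelData r N 𝔄 ζ Et G Tor X0 𝒞) (hr : r.Prime)
    (hζ : IsPrimitiveRoot ζ r) (hH : H'' ≤ G) (het : X0 ⊓ H'' ≤ H')
    (c : GQ → J) (hc : c ∈ 𝒞) (hv : c ∈ valued H'') : Et (fun σ => P.ι (c σ)) := by
  obtain ⟨lam', hmul, hpow, hext, htriv⟩ := exists_extend_char_trivial (V := ↥G) r hr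
    (fun x => Subtype.ext (D.gtors x.1 x.2)) ζ hζ (H''.addSubgroupOf G) (X0.addSubgroupOf G)
    (fun v => P.ι v.1) (fun x hx y hy => P.map_add _ hx _ hy) (fun x hx => P.pow _ hx)
    (fun x hx hx' => (P.ker _ hx).2 (het ⟨hx', hx⟩))
  set lam : J → Qb := fun x => if h : x ∈ G then lam' ⟨x, h⟩ else 1 with hlam
  have hl : ∀ (x : J) (h : x ∈ G), lam x = lam' ⟨x, h⟩ := fun x h => dif_pos h
  have hfun : (fun σ => lam (c σ)) = fun σ => P.ι (c σ) := by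
    funext σ
    rw [hl _ (hH (hv σ))]
    exact hext ⟨c σ, hH (hv σ)⟩ (hv σ)
  rw [← hfun]
  refine D.etc c hc lam ⟨fun x hx y hy => ?_, fun x hx => ?_⟩ (fun x hx => ?_) ?_
  · rw [hl x hx, hl y hy, hl _ (G.add_mem hx hy), ← hmul]
    rfl
  · rw [hl x hx, hpow]
  · rw [hl x (D.x0le hx)]
    exact htriv ⟨x, D.x0le hx⟩ hx
  · rw [hfun]
    exact P.isHom_of_inv D (P.inv_of_et D hr hζ hH het) c hc hv

open Classical in
theorem Piece.h_valDvd (P : Piece r H' H'') (D : SelData r N 𝔄 ζ Et G Tor X0 𝒞) (hr : r.Prime)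
    (hζ : IsPrimitiveRoot ζ r) (hH : H'' ≤ G)
    (heq : ∀ (σ : GQ), ∀ x ∈ H'', P.ι (σ • x) = σ (P.ι x))
    (c : GQ → J) (hc : c ∈ 𝒞) (hv : c ∈ valued H'') : ValDvd r r (fun σ => P.ι (c σ)) := by
  obtain ⟨lam', hmul, hpow, hext⟩ := exists_extend_char (V := ↥G) r hr
    (fun x => Subtype.ext (D.gtors x.1 x.2)) ζ hζ (H''.addSubgroupOf G)
    (fun v => P.ι v.1) (fun x hx y hy => P.map_add _ hx _ hy) (fun x hx => P.pow _ hx)
  set lam : J → Qb := fun x => if h : x ∈ G then lam' ⟨x, h⟩ else 1 with hlam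
  have hl : ∀ (x : J) (h : x ∈ G), lam x = lam' ⟨x, h⟩ := fun x h => dif_pos h
  have hfun : (fun σ => lam (c σ)) = fun σ => P.ι (c σ) := by
    funext σ
    rw [hl _ (hH (hv σ))]
    exact hext ⟨c σ, hH (hv σ)⟩ (hv σ)
  rw [← hfun]
  refine D.zc c hc lam ⟨fun x hx y hy => ?_, fun x hx => ?_⟩ ?_
  · rw [hl x hx, hl y hy, hl _ (G.add_mem hx hy), ← hmul]
    rfl
  · rw [hl x hx, hpow]
  · rw [hfun]
    exact P.isCoc_of_equiv D heq c hc hv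

end Fermat.Agent.S15.Sel
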